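import Fermat.Agent.ResidualThree.CubicDescent.Killing.Local

/-!
# Sums over `F` modulo a fractional ideal as products of local sums

By strong approximation the sum over `F / I` of a product of periodic local functions, units at
almost all places, is the product of the sums over the completions modulo the local ideals.
-/

noncomputable section

open IsDedekindDomain NumberField
open scoped WithZero

namespace Fermat.Agent.ResidualThree.Killing

variable {F : Type} [Field F] [NumberField F]

/-- An element of `F` close to given local elements and integral at the other places. -/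
theorem exists_approx_local (T : Finset (FPlace F)) (z : ∀ v : FPlace F, v.adicCompletion F)
    (e : FPlace F → ℤ) :
    ∃ x : F, (∀ v ∈ T, algebraMap F (v.adicCompletion F) x - z v ∈ ballv v (e v)) ∧
      ∀ v ∉ T, v.valuation F x ≤ 1 := by
  choose b hb using fun v : FPlace F => exists_sub_le_exp v (z v) (e v)
  obtain ⟨x, hx, hx'⟩ := exists_approx_finset T b (fun v => -e v)
  refine ⟨x, fun v hv => ?_, hx'⟩
  rw [mem_ballv, show algebraMap F (v.adicCompletion F) x - z v =
    algebraMap F (v.adicCompletion F) (x - b v) + (algebraMap F (v.adicCompletion F) (b v) - z v) by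
      rw [map_sub]; ring]
  refine (valv v).map_add_le ?_ (hb v)
  rw [valv_algebraMap]
  simpa [-WithZero.exp_neg] using hx v hv

open Classical in
/-- Sums over `F / I` of products of local periodic functions. -/
theorem finsum_quotient_eq_prod (T : Finset (FPlace F)) (e : FPlace F → ℤ)
    (he : ∀ v ∉ T, e v = 0) (I : AddSubgroup F)
    (hI : ∀ x, x ∈ I ↔ ∀ v : FPlace F, v.valuation F x ≤ WithZero.exp (e v))
    (h : ∀ v : FPlace F, v.adicCompletion F → ℂ)
    (hp : ∀ v ∈ T, ∀ g, ∀ z ∈ ballv v (e v), h v (g + z) = h v g)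
    (hs : ∀ v ∈ T,
        (Function.support fun q : v.adicCompletion F ⧸ ballv v (e v) => h v q.out).Finite)
    (G : F → ℂ)
    (hG : ∀ b : F, G b = if ∀ v ∉ T, v.valuation F b ≤ 1 then
      ∏ v ∈ T, h v (algebraMap F (v.adicCompletion F) b) else 0) :
    (Function.support fun q : F ⧸ I => G q.out).Finite ∧
      ∑ᶠ q : F ⧸ I, G q.out = ∏ v ∈ T, cosetSum (ballv v (e v)) (h v) := by
  set S : ∀ v : FPlace F, Finset (v.adicCompletion F ⧸ ballv v (e v)) := fun v =>
    if hv : v ∈ T then (hs v hv).toFinset else ∅ with hS
  have hmemS : ∀ v ∈ T, ∀ q, q ∈ S v ↔ h v q.out ≠ 0 := fun v hv q => by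
    simp only [hS, dif_pos hv, Set.Finite.mem_toFinset, Function.mem_support]
  choose β hβ hβ' using fun p : ∀ v ∈ T, v.adicCompletion F ⧸ ballv v (e v) =>
    exists_approx_local T (fun v => if hv : v ∈ T then (p v hv).out else 0) e
  let φ : (∀ v ∈ T, v.adicCompletion F ⧸ ballv v (e v)) → F ⧸ I := fun p =>
    QuotientAddGroup.mk (β p)
  have hclose : ∀ (p : ∀ v ∈ T, v.adicCompletion F ⧸ ballv v (e v)) (v) (hv : v ∈ T),
      (QuotientAddGroup.mk (algebraMap F (v.adicCompletion F) (β p)) :
        v.adicCompletion F ⧸ ballv v (e v)) = p v hv := fun p v hv => by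
    have h1 := hβ p v hv
    rw [dif_pos hv] at h1
    conv_rhs => rw [← QuotientAddGroup.out_eq' (p v hv)]
    rw [QuotientAddGroup.eq, neg_add_eq_sub, ← neg_sub]
    exact neg_mem h1
  have hG' : ∀ b c : F, b - c ∈ I → G b = G c := fun b c hbc => by
    rw [hI] at hbc
    rw [hG, hG]
    have h1 : ∀ v ∉ T, (v.valuation F b ≤ 1 ↔ v.valuation F c ≤ 1) := fun v hv => by
      have h2 := hbc v
      rw [he v hv, WithZero.exp_zero] at h2
      constructor
      · intro h3; rw [show c = b - (b - c) by ring]; exact (v.valuation F).map_sub_le h3 h2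
      · intro h3; rw [show b = (b - c) + c by ring]; exact (v.valuation F).map_add_le h2 h3
    refine if_congr (forall_congr' fun v => imp_congr_right (h1 v)) ?_ rfl
    refine Finset.prod_congr rfl fun v hv => ?_
    rw [show algebraMap F (v.adicCompletion F) b =
      algebraMap F (v.adicCompletion F) c + algebraMap F (v.adicCompletion F) (b - c) by
        rw [← map_add]; congr 1; ring]
    exact hp v hv _ _ (by rw [mem_ballv, valv_algebraMap]; exact hbc v)
  have hGφ : ∀ p, G (φ p).out = ∏ v ∈ T.attach, h v.1 (p v.1 v.2).out := fun p => by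
    have e1 : G (φ p).out = G (β p) := hG' _ _ (by
      rw [← neg_sub, neg_mem_iff, sub_eq_add_neg, add_comm]
      exact QuotientAddGroup.eq.mp (QuotientAddGroup.out_eq' (φ p)))
    rw [e1, hG, if_pos (hβ' p), ← Finset.prod_attach]
    refine Finset.prod_congr rfl fun v _ => ?_
    rw [← apply_out_eq (hp v.1 v.2) (algebraMap F (v.1.adicCompletion F) (β p)), hclose]
  have hinj : ∀ p p', φ p = φ p' → p = p' := fun p p' hpp => by
    funext v hv
    rw [← hclose p v hv, ← hclose p' v hv, QuotientAddGroup.eq, ← map_neg, ← map_add,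
      mem_ballv, valv_algebraMap]
    exact (hI _).mp (QuotientAddGroup.eq.mp hpp) v
  have hsupp : (Function.support fun q : F ⧸ I => G q.out) ⊆ ((T.pi S).image φ : Set (F ⧸ I)) := by
    intro q hq
    rw [Function.mem_support, hG] at hq
    split_ifs at hq with hint
    · rw [Finset.prod_ne_zero_iff] at hq
      set p : ∀ v ∈ T, v.adicCompletion F ⧸ ballv v (e v) := fun v _ =>
        QuotientAddGroup.mk (algebraMap F (v.adicCompletion F) q.out) with hp'
      refine Finset.mem_coe.mpr (Finset.mem_image.mpr ⟨p, Finset.mem_pi.mpr fun v hv => ?_, ?_⟩)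
      · rw [hmemS v hv, hp', apply_out_eq (hp v hv)]
        exact hq v hv
      · conv_rhs => rw [← QuotientAddGroup.out_eq' q]
        rw [QuotientAddGroup.eq, hI]
        intro v
        by_cases hv : v ∈ T
        · have h1 := QuotientAddGroup.eq.mp (hclose p v hv)
          rwa [← map_neg, ← map_add, mem_ballv, valv_algebraMap] at h1
        · rw [he v hv, WithZero.exp_zero, neg_add_eq_sub]
          exact (v.valuation F).map_sub_le (hint v hv) (hβ' p v hv)
    · exact absurd rfl hq
  refine ⟨(Finset.finite_toSet _).subset hsupp, ?_⟩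
  rw [finsum_eq_sum_of_support_subset _ hsupp, Finset.sum_image fun p _ p' _ => hinj p p',
    Finset.sum_congr rfl fun p _ => hGφ p]
  refine (Finset.prod_sum T S fun v q => h v q.out).symm.trans
    (Finset.prod_congr rfl fun v hv => ?_)
  rw [cosetSum,
    finsum_eq_sum_of_support_subset _ fun q hq => Finset.mem_coe.mpr ((hmemS v hv q).mpr hq)]

end Fermat.Agent.ResidualThree.Killing
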