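import Fermat.Agent.ResidualThree.Automorphic.Lattice
import Fermat.Agent.ResidualThree.Automorphic.Periods
import Fermat.Agent.ResidualThree.Spherical.Radial

/-!
# Unfolding a period box at the infinite places

The translates of the unit cube tile the space, so the integral over a period box of the periodised
kernel is, up to the volume of the box, the integral over all translations.
-/

noncomputable section

open IsDedekindDomain NumberField MeasureTheory

namespace Fermat.Agent.ResidualThree.Killing

/-- The translates of the cube tile the space. -/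
theorem hasSum_cube {ι : Type*} [Fintype ι] {G : (ι → ℝ) → ℂ} (hi : Integrable G) :
    HasSum (fun n : ι → ℤ => ∫ r in Set.Icc (0 : ι → ℝ) 1, G (r + fun i => (n i : ℝ)))
      (∫ r, G r) := by
  set S : (ι → ℤ) → Set (ι → ℝ) := fun n =>
    Set.univ.pi fun i => Set.Ioc ((n i : ℝ)) ((n i : ℝ) + 1) with hS
  have hm : ∀ n, MeasurableSet (S n) := fun n =>
    MeasurableSet.univ_pi fun i => measurableSet_Ioc
  have hd : Pairwise (Function.onFun Disjoint S) := by
    intro n m hnm
    obtain ⟨i, hi⟩ : ∃ i, n i ≠ m i := Function.ne_iff.mp hnm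
    refine Set.disjoint_left.mpr fun x hx hx' => ?_
    have h1 := hx i trivial
    have h2 := hx' i trivial
    rcases lt_or_gt_of_ne hi with h | h
    · have : ((n i : ℝ)) + 1 ≤ (m i : ℝ) := by exact_mod_cast h
      linarith [h1.2, h2.1]
    · have : ((m i : ℝ)) + 1 ≤ (n i : ℝ) := by exact_mod_cast h
      linarith [h2.2, h1.1]
  have hu : (⋃ n, S n) = Set.univ := Set.eq_univ_of_forall fun x =>
    Set.mem_iUnion.mpr ⟨fun i => ⌈x i⌉ - 1, fun i _ => by
      refine ⟨?_, ?_⟩ <;> push_cast
      · linarith [Int.ceil_lt_add_one (x i)]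
      · linarith [Int.le_ceil (x i)]⟩
  have h := hasSum_integral_iUnion hm hd (μ := volume) (f := G) (by rw [hu]; exact hi.integrableOn)
  rw [hu, setIntegral_univ] at h
  convert! h using 1
  funext n
  set t : ι → ℝ := fun i => (n i : ℝ)
  have hae : (Set.Icc (0 : ι → ℝ) 1) =ᵐ[volume] Set.univ.pi fun _ : ι => Set.Ioc (0 : ℝ) 1 := by
    rw [volume_pi]
    exact (Measure.univ_pi_Ioc_ae_eq_Icc (f := fun _ => (0 : ℝ)) (g := fun _ => 1)).symm
  rw [setIntegral_congr_set hae,
    ← (measurePreserving_add_right (volume : Measure (ι → ℝ)) t).setIntegral_preimage_emb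
      (MeasurableEquiv.addRight t).measurableEmbedding G (S n)]
  refine congrArg (fun s => ∫ r in s, G (r + t)) (Set.ext fun r => ?_)
  simp only [hS, t, Set.mem_preimage, Set.mem_pi, Set.mem_univ, forall_const, Set.mem_Ioc,
    Pi.add_apply]
  exact forall_congr' fun i => by constructor <;> rintro ⟨h1, h2⟩ <;> constructor <;> linarith

variable {F : Type} [Field F] [NumberField F] [IsTotallyComplex F]

theorem boxPt_eq (m : ℕ) (t : BasisIx F → ℝ) :
    boxPt m t = (m : ℝ) • (archBasis F).equivFun.symm t := by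
  rw [Module.Basis.equivFun_symm_apply]
  funext w
  simp only [Pi.smul_apply, Finset.sum_apply, archBasis_apply, integralBasis_apply,
    archEmbed_apply, boxPt, Complex.real_smul, Finset.mul_sum]
  exact Finset.sum_congr rfl fun i _ => by push_cast; ring

/-- The coordinates of a box as an equivalence. -/
def boxEquiv (m : ℕ) (hm : 0 < m) : (BasisIx F → ℝ) ≃L[ℝ] (InfinitePlace F → ℂ) :=
  ((archBasis F).equivFun.symm.trans (LinearEquiv.smulOfNeZero (K := ℝ)
    (M := InfinitePlace F → ℂ) (m : ℝ) (Nat.cast_ne_zero.mpr hm.ne'))).toContinuousLinearEquiv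

theorem boxEquiv_apply (m : ℕ) (hm : 0 < m) (t : BasisIx F → ℝ) :
    boxEquiv (F := F) m hm t = boxPt m t := (boxPt_eq m t).symm

variable (F) in
/-- An integral over the coordinates of a box is a constant times the integral over the space. -/
theorem exists_box_const (m : ℕ) (hm : 0 < m) :
    ∃ c : ℂ, ∀ g : (InfinitePlace F → ℂ) → ℂ, ∫ t, g (boxPt (F := F) m t) = c * ∫ x, g x := by
  set T := boxEquiv (F := F) m hm
  have : ((volume : Measure (BasisIx F → ℝ)).map T).IsAddHaarMeasure :=
    T.isAddHaarMeasure_map volume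
  refine ⟨((Measure.addHaarScalarFactor ((volume : Measure (BasisIx F → ℝ)).map T)
    (volume : Measure (InfinitePlace F → ℂ)) : ℝ) : ℂ), fun g => ?_⟩
  have h1 : ∫ x, g x ∂((volume : Measure (BasisIx F → ℝ)).map T) = ∫ t, g (T t) :=
    T.toHomeomorph.measurableEmbedding.integral_map g
  simp only [T, boxEquiv_apply] at h1
  rw [← h1]
  conv_lhs => rw [show ((volume : Measure (BasisIx F → ℝ)).map (boxEquiv (F := F) m hm)) = _ from
    Measure.isAddLeftInvariant_eq_smul ((volume : Measure (BasisIx F → ℝ)).map T)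
      (volume : Measure (InfinitePlace F → ℂ))]
  rw [integral_smul_nnreal_measure]
  rfl

/-- The integrand of a box. -/
def boxTerm (k : InfinitePlace F → ℝ → ℂ) (m : ℕ) (p q : Hyp F) (t : BasisIx F → ℝ) : ℂ :=
  ∏ w, k w (H3.coshDist (horoShift (boxPt m t) p w) (q w))

omit [IsTotallyComplex F] in
theorem coshDist_shift (p q : H3) (a b : ℂ) :
    H3.coshDist ⟨p.z + (a + b), p.y, p.y_pos⟩ q =
      H3.coshDist ⟨p.z + a, p.y, p.y_pos⟩ ⟨q.z + -b, q.y, q.y_pos⟩ := by
  simp only [H3.coshDist]
  ring_nf

omit [IsTotallyComplex F] in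
/-- The integral over all translations. -/
theorem integral_horo (k : InfinitePlace F → ℝ → ℂ) (p q : Hyp F) :
    ∫ u : InfinitePlace F → ℂ, ∏ w, k w (H3.coshDist (horoShift u p w) (q w)) =
      ∏ w, (((q w).y * (p w).y : ℝ) : ℂ) *
        abelTransform (k w) (Real.log (p w).y - Real.log (q w).y) := by
  show ∫ u : InfinitePlace F → ℂ,
    ∏ w, (fun z : ℂ => k w (H3.coshDist ⟨(p w).z + z, (p w).y, (p w).y_pos⟩ (q w))) (u w) = _
  rw [integral_fintype_prod_volume_eq_prod (f := fun (w : InfinitePlace F) (z : ℂ) =>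
    k w (H3.coshDist ⟨(p w).z + z, (p w).y, (p w).y_pos⟩ (q w)))]
  refine Finset.prod_congr rfl fun w _ => ?_
  have hy := (p w).y_pos
  have hof : ∀ z : ℂ, (⟨z, (p w).y, (p w).y_pos⟩ : H3) = H3.ofLog (z, Real.log (p w).y) :=
    fun z => H3.ext rfl (by simp [Real.exp_log hy])
  rw [integral_add_left_eq_self (fun z => k w (H3.coshDist ⟨z, (p w).y, (p w).y_pos⟩ (q w)))
    (p w).z]
  simp only [hof, H3.coshDist_comm _ (q w), H3.integral_horosphere, Real.exp_log hy]
  push_cast
  ring

/-- A box unfolds to the whole space of translations. -/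
theorem hasSum_boxTerm (m : ℕ) (hm : 0 < m) {c : ℂ}
    (hc : ∀ g : (InfinitePlace F → ℂ) → ℂ, ∫ t, g (boxPt (F := F) m t) = c * ∫ x, g x)
    (k : InfinitePlace F → ℝ → ℂ) (hk : ∀ w, H3.IsKernel (k w)) (p q : Hyp F) :
    HasSum (fun n : BasisIx F → ℤ => ∫ t in Set.Icc (0 : BasisIx F → ℝ) 1,
        boxTerm k m p (horoShift (-boxPt m fun i => (n i : ℝ)) q) t)
      (c * ∏ w, (((q w).y * (p w).y : ℝ) : ℂ) *
        abelTransform (k w) (Real.log (p w).y - Real.log (q w).y)) := by
  have hint : Integrable fun u : InfinitePlace F → ℂ =>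
      ∏ w, k w (H3.coshDist (horoShift u p w) (q w)) := by
    refine Integrable.fintype_prod (f := fun (w : InfinitePlace F) (z : ℂ) =>
      k w (H3.coshDist ⟨(p w).z + z, (p w).y, (p w).y_pos⟩ (q w))) fun w => ?_
    obtain ⟨R, hR1, hR⟩ := (hk w).exists_radius
    have hcont : Continuous fun z : ℂ =>
        k w (H3.coshDist ⟨(p w).z + z, (p w).y, (p w).y_pos⟩ (q w)) :=
      (hk w).cont.comp (Continuous.comp (g := fun x : H3 × H3 => H3.coshDist x.1 x.2)
        (f := fun z : ℂ => ((⟨(p w).z + z, (p w).y, (p w).y_pos⟩ : H3), q w))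
        H3.continuous_coshDist (((H3.continuous_iff (f := fun z : ℂ =>
          (⟨(p w).z + z, (p w).y, (p w).y_pos⟩ : H3))).mpr
            ⟨continuous_const.add continuous_id, continuous_const⟩).prodMk continuous_const))
    refine hcont.integrable_of_hasCompactSupport (HasCompactSupport.intro
      (isCompact_closedBall (-(p w).z + (q w).z) (Real.sqrt (2 * R * (p w).y * (q w).y)))
      fun z hz => hR _ ?_)
    rw [Metric.mem_closedBall, not_le, dist_eq_norm] at hz
    rw [Real.sqrt_lt' (lt_of_le_of_lt (Real.sqrt_nonneg _) hz)] at hz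
    have hp := (p w).y_pos
    have hq := (q w).y_pos
    rw [H3.coshDist, lt_div_iff₀ (by positivity)]
    rw [show z - (-(p w).z + (q w).z) = (p w).z + z - (q w).z by ring,
      ← Complex.normSq_eq_norm_sq] at hz
    nlinarith
  have h := hasSum_cube (G := fun t => boxTerm k m p q t) ?_
  · rw [show (∫ t, boxTerm k m p q t) = _ from
      hc fun u => ∏ w, k w (H3.coshDist (horoShift u p w) (q w)), integral_horo] at h
    refine h.congr_fun fun n => setIntegral_congr_fun measurableSet_Icc fun t _ => ?_
    simp only [boxTerm, boxPt_add, horoShift, Pi.add_apply, Pi.neg_apply]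
    exact Finset.prod_congr rfl fun w _ => by rw [coshDist_shift]
  · have := (boxEquiv (F := F) m hm).toHomeomorph.measurableEmbedding.integrable_map_iff
      (μ := (volume : Measure (BasisIx F → ℝ)))
      (g := fun u : InfinitePlace F → ℂ => ∏ w, k w (H3.coshDist (horoShift u p w) (q w)))
    have hH : ((volume : Measure (BasisIx F → ℝ)).map (boxEquiv (F := F) m hm)).IsAddHaarMeasure :=
      (boxEquiv (F := F) m hm).isAddHaarMeasure_map volume
    have h2 : Integrable (fun u : InfinitePlace F → ℂ =>
        ∏ w, k w (H3.coshDist (horoShift u p w) (q w)))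
        ((volume : Measure (BasisIx F → ℝ)).map (boxEquiv (F := F) m hm)) := by
      rw [Measure.isAddLeftInvariant_eq_smul
        ((volume : Measure (BasisIx F → ℝ)).map (boxEquiv (F := F) m hm))
        (volume : Measure (InfinitePlace F → ℂ))]
      exact hint.smul_measure ENNReal.coe_ne_top
    refine (this.mp h2).congr (Filter.Eventually.of_forall fun t => ?_)
    simp only [Function.comp_apply, ContinuousLinearEquiv.coe_toHomeomorph, boxEquiv_apply,
      boxTerm]

end Fermat.Agent.ResidualThree.Killing
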