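import Fermat.Agent.ResidualThree.Automorphic.Approx
import Fermat.Agent.ResidualThree.Automorphic.LocalVal
import Fermat.Agent.ResidualThree.CubicDescent.Transform

/-!
# Horospherical sums of spherical functions at one place

The sum over `b` modulo the integers of a spherical function at `[[α, b], [0, 1]]` is the
constant term transform at `log |α|`, times `|α|^(1/2)`.
-/

noncomputable section

open IsDedekindDomain NumberField
open scoped WithZero

namespace Fermat.Agent.ResidualThree.Killing

/-! ### Sums over cosets -/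

section Coset

variable {G : Type} [AddCommGroup G]

/-- The sum of a function over the cosets of a subgroup. -/
def cosetSum (H : AddSubgroup G) (h : G → ℂ) : ℂ := ∑ᶠ q : G ⧸ H, h q.out

theorem apply_out_eq {H : AddSubgroup G} {h : G → ℂ} (hp : ∀ g, ∀ x ∈ H, h (g + x) = h g) (g : G) :
    h (g : G ⧸ H).out = h g := by
  obtain ⟨x, hx⟩ := QuotientAddGroup.mk_out_eq_add H g
  rw [hx]
  exact hp g x x.2

/-- Passing to a subgroup multiplies the sum by the index. -/
theorem cosetSum_refine {H K : AddSubgroup G} (hle : H ≤ K) (hfin : H.relIndex K ≠ 0) {h : G → ℂ}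
    (hp : ∀ g, ∀ x ∈ K, h (g + x) = h g) (hs : (Function.support fun q : G ⧸ K => h q.out).Finite) :
    cosetSum H h = (H.relIndex K : ℂ) * cosetSum K h := by
  classical
  have : Finite (K ⧸ H.addSubgroupOf K) := Nat.finite_of_card_ne_zero hfin
  have := Fintype.ofFinite (K ⧸ H.addSubgroupOf K)
  set e := AddSubgroup.quotientEquivProdOfLE hle
  have he : ∀ q : G ⧸ H, h q.out = h (e q).1.out := fun q => by
    induction q using QuotientAddGroup.induction_on with
    | H g =>
      rw [apply_out_eq (fun a x hx => hp a x (hle hx))]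
      exact (apply_out_eq hp g).symm
  have hcard : (H.relIndex K : ℂ) = (Fintype.card (K ⧸ H.addSubgroupOf K) : ℂ) := by
    rw [← Nat.card_eq_fintype_card]; rfl
  rw [cosetSum, cosetSum, finsum_congr he,
    finsum_comp_equiv (f := fun p : (G ⧸ K) × (K ⧸ H.addSubgroupOf K) => h p.1.out) e,
    finsum_eq_sum_of_support_subset _ (s := hs.toFinset ×ˢ Finset.univ) fun p hp' => by
      rw [Finset.coe_product, Finset.coe_univ, Set.Finite.coe_toFinset]
      exact ⟨hp', trivial⟩,
    finsum_eq_sum_of_support_subset _ (s := hs.toFinset) (by rw [Set.Finite.coe_toFinset]),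
    Finset.sum_product, hcard, Finset.mul_sum]
  simp

/-- A bijection of cosets transports the sum. -/
theorem cosetSum_map {H K : AddSubgroup G} (e : G ≃ G) (he : ∀ a b, -a + b ∈ H ↔ -e a + e b ∈ K)
    {h : G → ℂ} (hp : ∀ g, ∀ x ∈ K, h (g + x) = h g) :
    cosetSum H (fun g => h (e g)) = cosetSum K h := by
  have he' : ∀ a b, QuotientAddGroup.leftRel H a b ↔ QuotientAddGroup.leftRel K (e a) (e b) :=
    fun a b => by rw [QuotientAddGroup.leftRel_apply, QuotientAddGroup.leftRel_apply]; exact he a b
  set E : G ⧸ H ≃ G ⧸ K := Quotient.congr e he'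
  have hE : ∀ q : G ⧸ H, h (e q.out) = h (E q).out := fun q => by
    conv_rhs => rw [← QuotientAddGroup.out_eq' q]
    show h (e q.out) = h (QuotientAddGroup.mk (e q.out) : G ⧸ K).out
    rw [apply_out_eq hp]
  rw [cosetSum, cosetSum, finsum_congr hE, finsum_comp_equiv (f := fun q : G ⧸ K => h q.out) E]

/-- The classes represented inside a larger subgroup are as many as the index. -/
theorem finite_out_mem {H K : AddSubgroup G} (hle : H ≤ K) (hfin : H.relIndex K ≠ 0) :
    {q : G ⧸ H | q.out ∈ K}.Finite ∧ {q : G ⧸ H | q.out ∈ K}.ncard = H.relIndex K := by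
  set φ : K ⧸ H.addSubgroupOf K → G ⧸ H := fun q => QuotientAddGroup.mk (q.out : G)
  have hφ : Function.Injective φ := fun a b h => by
    rw [← QuotientAddGroup.out_eq' a, ← QuotientAddGroup.out_eq' b, QuotientAddGroup.eq,
      AddSubgroup.mem_addSubgroupOf]
    exact QuotientAddGroup.eq.mp h
  have hrange : Set.range φ = {q : G ⧸ H | q.out ∈ K} := by
    ext q
    constructor
    · rintro ⟨p, rfl⟩
      obtain ⟨x, hx⟩ := QuotientAddGroup.mk_out_eq_add H (p.out : G)
      show (QuotientAddGroup.mk (p.out : G) : G ⧸ H).out ∈ K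
      rw [hx]
      exact add_mem p.out.2 (hle x.2)
    · intro hq
      refine ⟨QuotientAddGroup.mk ⟨q.out, hq⟩, ?_⟩
      obtain ⟨x, hx⟩ := QuotientAddGroup.mk_out_eq_add (H.addSubgroupOf K) (⟨q.out, hq⟩ : K)
      conv_rhs => rw [← QuotientAddGroup.out_eq' q]
      simp only [φ, hx]
      exact QuotientAddGroup.mk_add_of_mem _ (AddSubgroup.mem_addSubgroupOf.mp x.2)
  have : Finite (K ⧸ H.addSubgroupOf K) := Nat.finite_of_card_ne_zero hfin
  refine ⟨hrange ▸ Set.finite_range φ, ?_⟩
  rw [← hrange, ← Nat.card_coe_set_eq, Nat.card_range_of_injective hφ]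
  rfl

end Coset

variable {F : Type} [Field F] [NumberField F] (v : FPlace F)

/-- The elements of valuation at most `exp e`. -/
def ballv (e : ℤ) : AddSubgroup (v.adicCompletion F) where
  carrier := {z | valv v z ≤ WithZero.exp e}
  zero_mem' := by simp
  add_mem' ha hb := (valv v).map_add_le ha hb
  neg_mem' := by intro a ha; simpa using ha

theorem mem_ballv {e : ℤ} {z : v.adicCompletion F} : z ∈ ballv v e ↔ valv v z ≤ WithZero.exp e :=
  Iff.rfl

theorem ballv_mono {e e' : ℤ} (h : e ≤ e') : ballv v e ≤ ballv v e' := fun _ hz =>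
  le_trans hz (WithZero.exp_le_exp.mpr h)

theorem relIndex_ballv_succ (k : ℤ) :
    (ballv v k).relIndex (ballv v (k + 1)) = Ideal.absNorm v.asIdeal := by
  obtain ⟨π, hπ⟩ := (isLocalVal_valv v).exists_unif
  have hπ0 : π ≠ 0 := fun h => by rw [h, map_zero] at hπ; exact WithZero.exp_ne_zero hπ.symm
  set c := π ^ (k + 1)
  have hc : valv v c = WithZero.exp (-(k + 1)) := by
    rw [map_zpow₀, hπ, ← WithZero.exp_zsmul]; simp
  have hint : ∀ z : ballv v (k + 1), valv v (c * (z : v.adicCompletion F)) ≤ 1 := fun z => by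
    rw [map_mul, hc]
    refine (mul_le_mul_right z.2 _).trans ?_
    rw [← WithZero.exp_add, neg_add_cancel, WithZero.exp_zero]
  let red : ballv v (k + 1) →+ IsLocalRing.ResidueField (valv v).valuationSubring :=
    { toFun := fun z => IsLocalRing.residue _ ⟨c * z, hint z⟩
      map_zero' := by
        rw [residue_valv_eq_zero_iff]
        simp
      map_add' := fun a b => by
        rw [← map_add]
        congr 1
        exact Subtype.ext (mul_add c a b) }
  have hker : red.ker = (ballv v k).addSubgroupOf (ballv v (k + 1)) := by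
    ext z
    show IsLocalRing.residue _ (⟨c * z, hint z⟩ : (valv v).valuationSubring) = 0 ↔ _
    rw [residue_valv_eq_zero_iff, AddSubgroup.mem_addSubgroupOf, mem_ballv, map_mul, hc,
      Tree.lt_one_iff_le_exp,
      show WithZero.exp (-1 : ℤ) = WithZero.exp (-(k + 1)) * WithZero.exp k by
        rw [← WithZero.exp_add]; congr 1; ring, mul_le_mul_iff_right₀ WithZero.exp_pos]
  have hsurj : Function.Surjective red := fun r => by
    obtain ⟨z, rfl⟩ := IsLocalRing.residue_surjective r
    have hc0 : c ≠ 0 := zpow_ne_zero _ hπ0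
    refine ⟨⟨c⁻¹ * z, ?_⟩, ?_⟩
    · rw [mem_ballv, map_mul, map_inv₀, hc, ← WithZero.exp_neg, neg_neg]
      exact mul_le_of_le_one_right' z.2
    · show IsLocalRing.residue _ (⟨c * (c⁻¹ * z), _⟩ : (valv v).valuationSubring) = _
      congr 1
      exact Subtype.ext (mul_inv_cancel_left₀ hc0 _)
  rw [AddSubgroup.relIndex, AddSubgroup.index, ← hker, ← (isLocalVal_valv v).card_residue]
  exact Nat.card_congr (QuotientAddGroup.quotientKerEquivOfSurjective red hsurj).toEquiv

/-- The index of one ball in a larger one. -/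
theorem relIndex_ballv (k : ℤ) : ∀ n : ℕ,
    (ballv v k).relIndex (ballv v (k + n)) = Ideal.absNorm v.asIdeal ^ n
  | 0 => by simp
  | n + 1 => by
    rw [pow_succ, ← relIndex_ballv k n, ← relIndex_ballv_succ v (k + n), Nat.cast_succ, ← add_assoc]
    exact (AddSubgroup.relIndex_mul_relIndex _ _ _ (ballv_mono v (by omega))
      (ballv_mono v (by omega))).symm

theorem relIndex_ballv_ne_zero {e k : ℤ} (he : e ≤ k) :
    (ballv v e).relIndex (ballv v k) ≠ 0 := by
  have h := relIndex_ballv v e (k - e).toNat
  rw [Int.toNat_of_nonneg (by omega), add_sub_cancel] at h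
  rw [h]
  exact pow_ne_zero _ (absNorm_fplace_ne_zero v)

/-! ### The pole order of a class modulo the integers -/

/-- The order of the pole of `b`: the logarithm of its valuation, truncated at zero. -/
def poleOrder (b : v.adicCompletion F) : ℕ := (WithZero.log (valv v b)).toNat

theorem poleOrder_le_iff {b : v.adicCompletion F} {k : ℕ} : poleOrder v b ≤ k ↔ b ∈ ballv v k := by
  rw [mem_ballv]
  by_cases h : valv v b = 0
  · simp [poleOrder, h]
  · rw [poleOrder, Int.toNat_le, WithZero.log_le_iff_le_exp h]

theorem poleOrder_add {b x : v.adicCompletion F} (hx : x ∈ ballv v 0) :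
    poleOrder v (b + x) = poleOrder v b := by
  refine eq_of_forall_ge_iff fun k => ?_
  rw [poleOrder_le_iff, poleOrder_le_iff]
  exact AddSubgroup.add_mem_cancel_right _ (ballv_mono v (Int.natCast_nonneg k) hx)

/-- The classes with a pole of order at most `k`. -/
def poleSet (k : ℕ) : Set (v.adicCompletion F ⧸ ballv v 0) := {q | poleOrder v q.out ≤ k}

theorem finite_poleSet (k : ℕ) :
    (poleSet v k).Finite ∧ (poleSet v k).ncard = Ideal.absNorm v.asIdeal ^ k := by
  have h := finite_out_mem (ballv_mono v (Int.natCast_nonneg k))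
    (relIndex_ballv_ne_zero v (Int.natCast_nonneg k))
  have e := relIndex_ballv v 0 k
  rw [zero_add] at e
  rw [e] at h
  rwa [show poleSet v k = {q | q.out ∈ ballv v (k : ℤ)} from Set.ext fun q => poleOrder_le_iff v]

theorem finite_out_mem_ballv (e k : ℤ) :
    {q : v.adicCompletion F ⧸ ballv v e | q.out ∈ ballv v k}.Finite :=
  (finite_out_mem (ballv_mono v (le_max_left e k))
    (relIndex_ballv_ne_zero v (le_max_left e k))).1.subset fun _ hq =>
      ballv_mono v (le_max_right e k) hq

theorem cosetSum_poleOrder (φ : ℕ → ℂ) (K : ℕ) (hφ : ∀ k, K < k → φ k = 0) :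
    cosetSum (ballv v 0) (fun b => φ (poleOrder v b)) = φ 0 + ∑ k ∈ Finset.range K, φ (k + 1) *
      ((Ideal.absNorm v.asIdeal : ℂ) ^ (k + 1) - (Ideal.absNorm v.asIdeal : ℂ) ^ k) := by
  classical
  set S := fun k => (finite_poleSet v k).1.toFinset with hS
  have hcard : ∀ k, ((S k).card : ℂ) = (Ideal.absNorm v.asIdeal : ℂ) ^ k := fun k => by
    rw [hS, ← Set.ncard_eq_toFinset_card (poleSet v k) (finite_poleSet v k).1,
      (finite_poleSet v k).2, Nat.cast_pow]
  have key : ∀ n, ∑ q ∈ S n, φ (poleOrder v q.out) = φ 0 + ∑ k ∈ Finset.range n, φ (k + 1) *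
      ((Ideal.absNorm v.asIdeal : ℂ) ^ (k + 1) - (Ideal.absNorm v.asIdeal : ℂ) ^ k) := by
    intro n
    induction n with
    | zero =>
      rw [Finset.sum_congr rfl fun q hq => ?_, Finset.sum_const, nsmul_eq_mul, hcard, pow_zero,
        one_mul, Finset.range_zero, Finset.sum_empty, add_zero]
      rw [Nat.le_zero.mp ((finite_poleSet v 0).1.mem_toFinset.mp hq)]
    | succ n ih =>
      have hsub : S n ⊆ S (n + 1) := fun q hq => (finite_poleSet v (n + 1)).1.mem_toFinset.mpr
        (show poleOrder v q.out ≤ n + 1 from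
          le_trans ((finite_poleSet v n).1.mem_toFinset.mp hq) n.le_succ)
      rw [Finset.sum_range_succ, ← add_assoc, ← ih, ← Finset.sum_sdiff hsub,
        Finset.sum_congr rfl (g := fun _ => φ (n + 1)) fun q hq => ?_, Finset.sum_const,
        nsmul_eq_mul, Finset.cast_card_sdiff hsub, hcard, hcard]
      · ring
      · rw [Finset.mem_sdiff] at hq
        have h1 : poleOrder v q.out ≤ n + 1 := (finite_poleSet v (n + 1)).1.mem_toFinset.mp hq.1
        have h2 : ¬ poleOrder v q.out ≤ n := fun h =>
          hq.2 ((finite_poleSet v n).1.mem_toFinset.mpr h)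
        rw [show poleOrder v q.out = n + 1 by omega]
  rw [cosetSum, finsum_eq_sum_of_support_subset _ (s := S K) fun q hq => ?_, key]
  rw [Finset.mem_coe, hS, Set.Finite.mem_toFinset]
  by_contra h
  exact hq (hφ _ (not_le.mp h))

/-! ### Spherical functions on upper triangular matrices -/

/-- The distance of an upper triangular element. -/
theorem cartan_upGL (α : (v.adicCompletion F)ˣ) (b : v.adicCompletion F) :
    cartan (valv v) (upGL α 1 b) = (WithZero.log (valv v (α : v.adicCompletion F))).natAbs +
      2 * (poleOrder v b - (WithZero.log (valv v (α : v.adicCompletion F))).toNat) := by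
  have hα : valv v (α : v.adicCompletion F) ≠ 0 := (Valuation.ne_zero_iff _).mpr α.ne_zero
  set M : ℤ := max (max (WithZero.log (valv v (α : v.adicCompletion F)))
    (WithZero.log (valv v b))) 0 with hM
  have hn : Tree.nrm (valv v) (upGL α 1 b : Matrix (Fin 2) (Fin 2) (v.adicCompletion F)) =
      WithZero.exp M := by
    refine le_antisymm (Tree.nrm_le_iff.mpr fun i j => ?_) ?_
    · fin_cases i <;> fin_cases j <;> simp
      · rw [← WithZero.exp_log hα, WithZero.exp_le_exp, hM]
        exact (le_max_left _ _).trans (le_max_left _ _)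
      · rcases eq_or_ne (valv v b) 0 with hb | hb
        · rw [hb]; exact zero_le
        · rw [← WithZero.exp_log hb, WithZero.exp_le_exp, hM]
          exact (le_max_right _ _).trans (le_max_left _ _)
      · rw [← WithZero.exp_zero, WithZero.exp_le_exp]
        exact le_max_right _ _
    · have h00 := Tree.le_nrm (v := valv v)
        (upGL α 1 b : Matrix (Fin 2) (Fin 2) (v.adicCompletion F)) 0 0
      have h01 := Tree.le_nrm (v := valv v)
        (upGL α 1 b : Matrix (Fin 2) (Fin 2) (v.adicCompletion F)) 0 1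
      have h11 := Tree.le_nrm (v := valv v)
        (upGL α 1 b : Matrix (Fin 2) (Fin 2) (v.adicCompletion F)) 1 1
      simp at h00 h01 h11
      rw [hM]
      rcases max_choice (max (WithZero.log (valv v (α : v.adicCompletion F)))
          (WithZero.log (valv v b))) 0 with e | e <;> rw [e]
      · rcases max_choice (WithZero.log (valv v (α : v.adicCompletion F)))
          (WithZero.log (valv v b)) with e' | e' <;> rw [e']
        · rwa [WithZero.exp_log hα]
        · rcases eq_or_ne (valv v b) 0 with hb | hb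
          · rw [hb, WithZero.log_zero, WithZero.exp_zero]; exact h11
          · rwa [WithZero.exp_log hb]
      · rw [WithZero.exp_zero]; exact h11
  rw [Tree.cartan_eq_iff, Tree.cartanInt_eq, hn, WithZero.log_exp,
    show (upGL α 1 b : Matrix (Fin 2) (Fin 2) (v.adicCompletion F)).det =
      (α : v.adicCompletion F) by
      simp [Matrix.det_fin_two], hM, poleOrder]
  omega

/-- The horospherical sum of a spherical function. -/
theorem cosetSum_cartan (f : ℕ →₀ ℂ) (α : (v.adicCompletion F)ˣ) :
    cosetSum (ballv v 0) (fun b => f (cartan (valv v) (upGL α 1 b))) =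
      Tree.csqrtN (Ideal.absNorm v.asIdeal) ^ WithZero.log (valv v (α : v.adicCompletion F)) *
        satakeInt (Ideal.absNorm v.asIdeal) f (WithZero.log (valv v (α : v.adicCompletion F))) := by
  set Q := Ideal.absNorm v.asIdeal
  set l := WithZero.log (valv v (α : v.adicCompletion F))
  set M := l.toNat
  set n := l.natAbs with hn
  have hQ : Q ≠ 0 := absNorm_fplace_ne_zero v
  simp only [cartan_upGL]
  rw [cosetSum_poleOrder v (fun k => f (n + 2 * (k - M))) (M + Tree.spBound f) fun k hk =>
    Tree.apply_eq_zero_of_spBound_le (by omega)]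
  have h1 : ∀ i, i ≤ M → ∑ k ∈ Finset.range i, f (n + 2 * (k + 1 - M)) *
      ((Q : ℂ) ^ (k + 1) - (Q : ℂ) ^ k) = ((Q : ℂ) ^ i - 1) * f n := by
    intro i
    induction i with
    | zero => simp
    | succ i ih =>
      intro hi
      rw [Finset.sum_range_succ, ih (by omega), show i + 1 - M = 0 by omega, mul_zero, add_zero]
      ring
  simp only [Nat.zero_sub, mul_zero, add_zero]
  rw [Finset.sum_range_add, h1 M le_rfl]
  have h2 : ∑ x ∈ Finset.range (Tree.spBound f), f (n + 2 * (M + x + 1 - M)) *
      ((Q : ℂ) ^ (M + x + 1) - (Q : ℂ) ^ (M + x)) =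
        (Q : ℂ) ^ M * (((Q : ℂ) - 1) * Tree.outBranch Q f n) := by
    rw [Tree.outBranch, Finset.mul_sum, Finset.mul_sum]
    refine Finset.sum_congr rfl fun x _ => ?_
    rw [show M + x + 1 - M = x + 1 by omega]
    ring
  rw [h2, satakeInt, ← hn, ← Tree.outSum_two hQ, Tree.outSum]
  have hs := Tree.csqrtN_ne_zero hQ
  have hp : Tree.csqrtN Q ^ l * Tree.csqrtN Q ^ n = (Q : ℂ) ^ M := by
    rw [← zpow_natCast (Tree.csqrtN Q) n, ← zpow_add₀ hs, ← Tree.csqrtN_sq Q, ← pow_mul,
      ← zpow_natCast]
    congr 1
    omega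
  rw [← mul_assoc (Tree.csqrtN Q ^ l), hp]
  push_cast
  ring

theorem finite_support_cartan (f : ℕ →₀ ℂ) (α : (v.adicCompletion F)ˣ) :
    (Function.support fun q : v.adicCompletion F ⧸ ballv v 0 =>
      f (cartan (valv v) (upGL α 1 q.out))).Finite := by
  refine (finite_poleSet v (Tree.spBound f +
    (WithZero.log (valv v (α : v.adicCompletion F))).toNat)).1.subset fun q hq => ?_
  show poleOrder v q.out ≤ _
  have : cartan (valv v) (upGL α 1 q.out) < Tree.spBound f := by
    by_contra h
    exact hq (Tree.apply_eq_zero_of_spBound_le (not_lt.mp h))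
  rw [cartan_upGL] at this
  omega

theorem cartan_upGL_add (α : (v.adicCompletion F)ˣ) {b x : v.adicCompletion F}
    (hx : x ∈ ballv v 0) :
    cartan (valv v) (upGL α 1 (b + x)) = cartan (valv v) (upGL α 1 b) := by
  rw [cartan_upGL, cartan_upGL, poleOrder_add v hx]

end Fermat.Agent.ResidualThree.Killing
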