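import Fermat.Agent.ResidualThree.BianchiForm.LocalGroup
import Fermat.Agent.ResidualThree.CubicDescent.Killing.Local

/-!
# The sums over translations at one place between two classes

`placeSum` sums a function over the translations modulo the absorbed ones. For a spherical
function it is the transform at the normalised exponent of the diagonal entry; for the indicator
of the level it is invariant under multiplication by elements close to one.
-/

noncomputable section

open IsDedekindDomain NumberField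
open scoped WithZero

namespace Fermat.Agent.ResidualThree.Killing

variable {F : Type} [Field F] [NumberField F] (v : FPlace F)

/-- The sum over translations modulo `ballv v e` of a function between two elements. -/
def placeSum (e : ℤ) (f : GLv v → ℂ) (x y : GLv v) (a : (v.adicCompletion F)ˣ) : ℂ :=
  cosetSum (ballv v e) fun b => f (x⁻¹ * upGL a 1 b * y)

/-- The translations by `ballv v e` are absorbed on the left. -/
def IsAbsorbed (J : Subgroup (GLv v)) (e : ℤ) (x : GLv v) : Prop :=
  ∀ z ∈ ballv v e, x⁻¹ * upGL 1 1 z * x ∈ J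

theorem exists_affine_max (g : GLv v) :
    ∃ (α : (v.adicCompletion F)ˣ) (τ : v.adicCompletion F),
      ∃ k ∈ maxSubgroup v, g = upGL α 1 τ * k := by
  obtain ⟨k, hk, h0⟩ := exists_upper_mul_intGL (valv v) g
  obtain ⟨a, d, t, he⟩ := eq_upGL_of_apply_eq_zero h0
  refine ⟨a * d⁻¹, t * (d⁻¹ : (v.adicCompletion F)ˣ),
    Matrix.GeneralLinearGroup.scalar (Fin 2) d * k⁻¹,
    mul_mem (center_le_maxSubgroup v (Tree.scalar_mem_center _))
      (inv_mem (intGL_le_maxSubgroup v hk)), ?_⟩
  rw [← mul_assoc, eq_mul_inv_iff_mul_eq, he, scalar_eq_upGL, upGL_mul]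
  congr 1 <;> simp

theorem upGL_ext {R : Type*} [Field R] {a a' d d' : Rˣ} {t t' : R} (ha : (a : R) = a')
    (hd : (d : R) = d') (ht : t = t') : upGL a d t = upGL a' d' t' := by
  obtain rfl := Units.ext ha
  obtain rfl := Units.ext hd
  rw [ht]

theorem affine_conj (a αx αy : (v.adicCompletion F)ˣ) (τx τy b : v.adicCompletion F)
    (kx ky : GLv v) :
    (upGL αx 1 τx * kx)⁻¹ * upGL a 1 b * (upGL αy 1 τy * ky) =
      kx⁻¹ * upGL (αx⁻¹ * a * αy) 1
        ((αx : v.adicCompletion F)⁻¹ * (b + ((a : v.adicCompletion F) * τy - τx))) * ky := by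
  rw [mul_inv_rev, upGL_inv]
  simp only [mul_assoc]
  congr 1
  rw [← mul_assoc, ← mul_assoc, upGL_mul, upGL_mul]
  congr 1
  refine upGL_ext ?_ ?_ ?_ <;> simp <;> ring

theorem upGL_add_eq (a : (v.adicCompletion F)ˣ) (b z : v.adicCompletion F) :
    upGL a 1 (b + z) = upGL 1 1 z * upGL a 1 b := by
  rw [upGL_mul, one_mul, one_mul]
  congr 1
  simp

/-- Periodicity of the terms. -/
theorem term_periodic {J : Subgroup (GLv v)} {e : ℤ} {x : GLv v} (hx : IsAbsorbed v J e x)
    {f : GLv v → ℂ} (hf : ∀ j ∈ J, ∀ g, f (j * g) = f g) (y : GLv v)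
    (a : (v.adicCompletion F)ˣ) (b : v.adicCompletion F) {z : v.adicCompletion F}
    (hz : z ∈ ballv v e) :
    f (x⁻¹ * upGL a 1 (b + z) * y) = f (x⁻¹ * upGL a 1 b * y) := by
  rw [upGL_add_eq, show x⁻¹ * (upGL 1 1 z * upGL a 1 b) * y =
    (x⁻¹ * upGL 1 1 z * x) * (x⁻¹ * upGL a 1 b * y) by group]
  exact hf _ (hx z hz) _

/-- Functions of bounded support in the tree have finitely many translations. -/
theorem finite_support_term (e : ℤ) (f : GLv v → ℂ) {N : ℕ}
    (hf : ∀ g, f g ≠ 0 → cartan (valv v) g < N) (x y : GLv v) (a : (v.adicCompletion F)ˣ) :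
    (Function.support fun q : v.adicCompletion F ⧸ ballv v e =>
      f (x⁻¹ * upGL a 1 q.out * y)).Finite := by
  obtain ⟨αx, τx, kx, hkx, rfl⟩ := exists_affine_max v x
  obtain ⟨αy, τy, ky, hky, rfl⟩ := exists_affine_max v y
  set c : v.adicCompletion F := (a : v.adicCompletion F) * τy - τx
  set α := αx⁻¹ * a * αy
  set K : ℤ := (N : ℤ) + (WithZero.log (valv v (α : v.adicCompletion F))).toNat
  set R : ℤ := max (WithZero.log (valv v (αx : v.adicCompletion F)) + K)
    (WithZero.log (valv v c))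
  refine (finite_out_mem_ballv v e R).subset fun q hq => ?_
  have h1 := hf _ hq
  rw [affine_conj, Tree.cartan_mul_right hky, Tree.cartan_mul_left (inv_mem hkx),
    cartan_upGL] at h1
  have h2 : (αx : v.adicCompletion F)⁻¹ * (q.out + c) ∈ ballv v K := by
    refine ballv_mono v ?_ ((poleOrder_le_iff v).mp le_rfl)
    simp only [K, c]
    omega
  have hc : c ∈ ballv v (WithZero.log (valv v c)) := by
    rw [mem_ballv]
    rcases eq_or_ne (valv v c) 0 with h | h
    · rw [h]; exact zero_le
    · rw [WithZero.exp_log h]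
  have h3 : q.out + c ∈ ballv v (WithZero.log (valv v (αx : v.adicCompletion F)) + K) := by
    rw [mem_ballv, WithZero.exp_add, WithZero.exp_log ((Valuation.ne_zero_iff _).mpr αx.ne_zero)]
    rw [mem_ballv, map_mul, map_inv₀, inv_mul_le_iff₀
      (zero_lt_iff.mpr ((Valuation.ne_zero_iff _).mpr αx.ne_zero))] at h2
    exact h2
  show q.out ∈ ballv v R
  have := sub_mem (ballv_mono v (le_max_left _ _ : _ ≤ R) h3)
    (ballv_mono v (le_max_right _ _ : _ ≤ R) hc)
  rwa [add_sub_cancel_right] at this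

/-- The normalised exponent at the place. -/
def logExp (αx αy a : (v.adicCompletion F)ˣ) : ℤ :=
  WithZero.log (valv v ((αx⁻¹ * a * αy : (v.adicCompletion F)ˣ) : v.adicCompletion F))

/-- Only translations that are integral after normalisation can be absorbed. -/
theorem absorbed_exp_le {J : Subgroup (GLv v)} (hJ : J ≤ maxSubgroup v) {e : ℤ}
    {αx : (v.adicCompletion F)ˣ} {τx : v.adicCompletion F} {kx : GLv v}
    (hk : kx ∈ maxSubgroup v) (hx : IsAbsorbed v J e (upGL αx 1 τx * kx)) :
    e - WithZero.log (valv v (αx : v.adicCompletion F)) ≤ 0 := by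
  obtain ⟨π, hπ⟩ := (isLocalVal_valv v).exists_unif
  have hz : valv v (π ^ (-e)) = WithZero.exp e := by
    rw [map_zpow₀, hπ, ← WithZero.exp_zsmul]; simp
  have h := hJ (hx _ (show π ^ (-e) ∈ ballv v e from hz.le))
  rw [show (upGL αx 1 τx * kx)⁻¹ * upGL 1 1 (π ^ (-e)) * (upGL αx 1 τx * kx) =
      kx⁻¹ * upGL (αx⁻¹ * 1 * αx) 1
        ((αx : v.adicCompletion F)⁻¹ * (π ^ (-e) + (((1 : (v.adicCompletion F)ˣ) :
          v.adicCompletion F) * τx - τx))) * kx from affine_conj v 1 αx αx τx τx _ kx kx,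
    Subgroup.mul_mem_cancel_right _ hk, Subgroup.mul_mem_cancel_left _ (inv_mem hk),
    upGL_mem_maxSubgroup_iff] at h
  have h2 := h.2
  have hα0 : valv v (αx : v.adicCompletion F) ≠ 0 := (Valuation.ne_zero_iff _).mpr αx.ne_zero
  rw [Units.val_one, one_mul, sub_self, add_zero, map_mul, map_inv₀, hz,
    inv_mul_le_iff₀ (zero_lt_iff.mpr hα0), mul_one, ← WithZero.exp_log hα0,
    WithZero.exp_le_exp] at h2
  omega

/-- The sum of a spherical function between two classes. -/
theorem placeSum_spherical {J : Subgroup (GLv v)} (hJ : J ≤ maxSubgroup v) {e : ℤ}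
    (f : ℕ →₀ ℂ) {αx αy : (v.adicCompletion F)ˣ} {τx τy : v.adicCompletion F} {kx ky : GLv v}
    (hkx : kx ∈ maxSubgroup v) (hky : ky ∈ maxSubgroup v)
    (hx : IsAbsorbed v J e (upGL αx 1 τx * kx)) (a : (v.adicCompletion F)ˣ) :
    placeSum v e (fun g => f (cartan (valv v) g)) (upGL αx 1 τx * kx) (upGL αy 1 τy * ky) a =
      ((ballv v (e - WithZero.log (valv v (αx : v.adicCompletion F)))).relIndex (ballv v 0) : ℂ) *
        (Tree.csqrtN (Ideal.absNorm v.asIdeal) ^ logExp v αx αy a *
          satakeInt (Ideal.absNorm v.asIdeal) f (logExp v αx αy a)) := by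
  set c : v.adicCompletion F := (a : v.adicCompletion F) * τy - τx
  have hle := absorbed_exp_le v hJ hkx hx
  have hterm : ∀ b, f (cartan (valv v)
      ((upGL αx 1 τx * kx)⁻¹ * upGL a 1 b * (upGL αy 1 τy * ky))) =
      f (cartan (valv v) (upGL (αx⁻¹ * a * αy) 1 ((αx : v.adicCompletion F)⁻¹ * (b + c)))) :=
    fun b => by rw [affine_conj, Tree.cartan_mul_right hky, Tree.cartan_mul_left (inv_mem hkx)]
  have hα0 : valv v (αx : v.adicCompletion F) ≠ 0 := (Valuation.ne_zero_iff _).mpr αx.ne_zero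
  rw [placeSum]
  simp only [hterm]
  refine (cosetSum_map (K := ballv v (e - WithZero.log (valv v (αx : v.adicCompletion F))))
    ((Equiv.addRight c).trans (Equiv.mulLeft₀ (αx : v.adicCompletion F)⁻¹ (inv_ne_zero αx.ne_zero)))
    (fun b b' => ?_) (h := fun b => f (cartan (valv v) (upGL (αx⁻¹ * a * αy) 1 b)))
    (fun g x hx' => by rw [cartan_upGL_add v _ (ballv_mono v hle hx')])).trans ?_
  rotate_left
  rw [cosetSum_refine (ballv_mono v hle) (relIndex_ballv_ne_zero v hle)
      (fun g x hx' => by rw [cartan_upGL_add v _ hx']) (finite_support_cartan v f _),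
    cosetSum_cartan]
  · rfl
  · show -b + b' ∈ _ ↔
      -((αx : v.adicCompletion F)⁻¹ * (b + c)) + (αx : v.adicCompletion F)⁻¹ * (b' + c) ∈ _
    rw [show -((αx : v.adicCompletion F)⁻¹ * (b + c)) + (αx : v.adicCompletion F)⁻¹ * (b' + c) =
      (αx : v.adicCompletion F)⁻¹ * (-b + b') by ring, mem_ballv, mem_ballv, map_mul, map_inv₀,
      inv_mul_le_iff₀ (zero_lt_iff.mpr hα0)]
    conv_rhs =>
      enter [2]
      rw [← WithZero.exp_log hα0, ← WithZero.exp_add, WithZero.log_exp, add_sub_cancel]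

open Classical in
/-- The sum of a bi-invariant function does not change if the diagonal entry is multiplied by an
element whose conjugates by the maximal compact subgroup lie in the level. -/
theorem placeSum_mul_right {J : Subgroup (GLv v)} {e : ℤ} {x y : GLv v}
    (hx : IsAbsorbed v J e x) {f : GLv v → ℂ} (hl : ∀ j ∈ J, ∀ g, f (j * g) = f g)
    (hr : ∀ j ∈ J, ∀ g, f (g * j) = f g) {a₀ : (v.adicCompletion F)ˣ}
    (h₀ : ∀ k ∈ maxSubgroup v, k⁻¹ * upGL a₀ 1 0 * k ∈ J) (a : (v.adicCompletion F)ˣ) :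
    placeSum v e f x y (a * a₀) = placeSum v e f x y a := by
  obtain ⟨αy, τy, ky, hky, rfl⟩ := exists_affine_max v y
  set c : v.adicCompletion F := (a : v.adicCompletion F) * ((a₀ : v.adicCompletion F) - 1) * τy
  have hterm : ∀ b, f (x⁻¹ * upGL (a * a₀) 1 b * (upGL αy 1 τy * ky)) =
      f (x⁻¹ * upGL a 1 (b + c) * (upGL αy 1 τy * ky)) := fun b => by
    rw [← hr _ (h₀ ky hky) (x⁻¹ * upGL a 1 (b + c) * (upGL αy 1 τy * ky))]
    congr 1
    simp only [mul_assoc, mul_inv_cancel_left]
    congr 1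
    rw [← mul_assoc (upGL αy 1 τy), ← mul_assoc, ← mul_assoc (upGL a 1 (b + c)), upGL_mul,
      upGL_mul, upGL_mul]
    congr 1
    refine upGL_ext ?_ ?_ ?_ <;> simp [c] <;> ring
  rw [placeSum, placeSum]
  simp only [hterm]
  exact cosetSum_map (H := ballv v e) (K := ballv v e) (Equiv.addRight c)
    (h := fun b => f (x⁻¹ * upGL a 1 b * (upGL αy 1 τy * ky)))
    (fun b b' => by simp [add_comm, add_left_comm])
    (fun b z hz => term_periodic v hx hl _ a b hz)

open Classical in
/-- A non-zero sum of the indicator of the level forces the normalised exponent to vanish. -/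
theorem logExp_eq_zero_of_ne_zero {J : Subgroup (GLv v)} (hJ : J ≤ maxSubgroup v) {e : ℤ}
    {αx αy : (v.adicCompletion F)ˣ} {τx τy : v.adicCompletion F} {kx ky : GLv v}
    (hkx : kx ∈ maxSubgroup v) (hky : ky ∈ maxSubgroup v) {a : (v.adicCompletion F)ˣ}
    (h : placeSum v e (fun g => if g ∈ J then (1 : ℂ) else 0) (upGL αx 1 τx * kx)
      (upGL αy 1 τy * ky) a ≠ 0) : logExp v αx αy a = 0 := by
  by_contra hne
  refine h (finsum_eq_zero_of_forall_eq_zero fun q => if_neg fun hq => hne ?_)
  have h1 := hJ hq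
  rw [affine_conj, Subgroup.mul_mem_cancel_right _ hky,
    Subgroup.mul_mem_cancel_left _ (inv_mem hkx), upGL_mem_maxSubgroup_iff] at h1
  rw [logExp, h1.1, WithZero.log_one]

open Classical in
/-- The sum at an unramified place of two integral classes. -/
theorem placeSum_unit {x y : GLv v} (hx : x ∈ maxSubgroup v) (hy : y ∈ maxSubgroup v)
    {a : (v.adicCompletion F)ˣ} (ha : valv v (a : v.adicCompletion F) = 1) :
    placeSum v 0 (fun g => if g ∈ maxSubgroup v then (1 : ℂ) else 0) x y a = 1 := by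
  have hmem : ∀ b, x⁻¹ * upGL a 1 b * y ∈ maxSubgroup v ↔ b ∈ ballv v 0 := fun b => by
    rw [Subgroup.mul_mem_cancel_right _ hy, Subgroup.mul_mem_cancel_left _ (inv_mem hx),
      upGL_mem_maxSubgroup_iff, mem_ballv, WithZero.exp_zero]
    exact and_iff_right ha
  rw [placeSum, cosetSum, finsum_eq_single _ (0 : v.adicCompletion F ⧸ ballv v 0) fun q hq => ?_]
  · rw [if_pos ((hmem _).mpr ?_)]
    rw [← QuotientAddGroup.eq_zero_iff, QuotientAddGroup.out_eq']
  · refine if_neg fun h => hq ?_
    rw [← QuotientAddGroup.out_eq' q, QuotientAddGroup.eq_zero_iff]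
    exact (hmem _).mp h

end Fermat.Agent.ResidualThree.Killing
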