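import Fermat.Agent.ResidualThree.CubicDescent.Killing.Approx
import Fermat.Agent.ResidualThree.CubicDescent.Killing.Arch
import Fermat.Agent.ResidualThree.CubicDescent.Killing.Place
import Fermat.Agent.ResidualThree.Kernel.CuspBound

/-!
# The finite part of the Borel sum at a fixed diagonal element

For a period `m` of a class the finite part is periodic in the translation modulo
`periodLattice F m`, and its sum factors into the local sums at `P` and the sums of the level
elsewhere.
-/

noncomputable section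

open IsDedekindDomain NumberField MeasureTheory
open scoped WithZero

namespace Fermat.Agent.ResidualThree.Killing

variable {F : Type} [Field F] [NumberField F] {U : Level F}

/-- The image of a unit in a completion. -/
def aLoc (v : FPlace F) (a : Fˣ) : (v.adicCompletion F)ˣ :=
  Units.map (algebraMap F (v.adicCompletion F)).toMonoidHom a

theorem coe_aLoc (v : FPlace F) (a : Fˣ) :
    (aLoc v a : v.adicCompletion F) = algebraMap F (v.adicCompletion F) (a : F) := rfl

theorem valv_aLoc (v : FPlace F) (a : Fˣ) :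
    valv v (aLoc v a : v.adicCompletion F) = v.valuation F (a : F) := valv_algebraMap v _

theorem toLocal_upGL_eq (v : FPlace F) (a : Fˣ) (b : F) :
    toLocal v (upGL a 1 b) = upGL (aLoc v a) 1 (algebraMap F (v.adicCompletion F) b) := by
  rw [toLocal_upGL, map_one]
  rfl

/-- The exponent of a period. -/
def periodExp (m : ℕ) (v : FPlace F) : ℤ := WithZero.log (v.valuation F (m : F))

theorem valuation_natCast_ne_zero {m : ℕ} (hm : 0 < m) (v : FPlace F) :
    v.valuation F (m : F) ≠ 0 :=
  (Valuation.ne_zero_iff _).mpr (Nat.cast_ne_zero.mpr hm.ne')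

theorem exp_periodExp {m : ℕ} (hm : 0 < m) (v : FPlace F) :
    WithZero.exp (periodExp (F := F) m v) = v.valuation F (m : F) :=
  WithZero.exp_log (valuation_natCast_ne_zero hm v)

theorem periodExp_nonpos {m : ℕ} (hm : 0 < m) (v : FPlace F) : periodExp (F := F) m v ≤ 0 := by
  rw [← WithZero.exp_le_exp, exp_periodExp hm, WithZero.exp_zero,
    ← map_natCast (algebraMap (𝓞 F) F)]
  exact v.valuation_le_one _

theorem eventually_periodExp_eq_zero {m : ℕ} (hm : 0 < m) :
    ∀ᶠ v : FPlace F in Filter.cofinite, periodExp (F := F) m v = 0 := by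
  filter_upwards [eventually_norm_eq_one (F := F) (x := (m : F)) (Nat.cast_ne_zero.mpr hm.ne')]
    with v hv
  rw [norm_eq_one_iff_valv, valv_algebraMap] at hv
  rw [periodExp, hv, WithZero.log_one]

variable (F) in
/-- The period lattice. -/
def periodLattice (m : ℕ) : AddSubgroup F where
  carrier := {x | ∀ v : FPlace F, v.valuation F x ≤ WithZero.exp (periodExp m v)}
  zero_mem' v := by simp
  add_mem' ha hb v := (v.valuation F).map_add_le (ha v) (hb v)
  neg_mem' {a} ha v := by rw [Valuation.map_neg]; exact ha v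

theorem mem_periodLattice {m : ℕ} {x : F} :
    x ∈ periodLattice F m ↔ ∀ v : FPlace F, v.valuation F x ≤ WithZero.exp (periodExp m v) :=
  Iff.rfl

theorem exists_integer_of_mem_periodLattice {m : ℕ} (hm : 0 < m) {x : F}
    (hx : x ∈ periodLattice F m) :
    ∃ β : 𝓞 F, x = (m : F) * (β : F) := by
  obtain ⟨β, hβ⟩ := HeightOneSpectrum.mem_integers_of_valuation_le_one F (x / (m : F)) fun v => by
    rw [map_div₀, div_le_one₀ (zero_lt_iff.mpr (valuation_natCast_ne_zero hm v)),
      ← exp_periodExp hm]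
    exact hx v
  refine ⟨β, ?_⟩
  rw [show ((β : 𝓞 F) : F) = x / (m : F) from hβ, mul_div_cancel₀ x (Nat.cast_ne_zero.mpr hm.ne')]

theorem natCast_mul_mem_periodLattice {m : ℕ} (hm : 0 < m) (β : 𝓞 F) :
    (m : F) * (β : F) ∈ periodLattice F m := fun v => by
  rw [map_mul, exp_periodExp hm]
  exact mul_le_of_le_one_right' (v.valuation_le_one β)

/-- `m` is a period at the class of `x`: the translations by the multiples of `m` are absorbed by
the level. -/
def IsPeriodClass (U : Level F) (x : Gf F) (m : ℕ) : Prop :=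
  ∀ β : 𝓞 F, ∀ v : FPlace F,
    (x.1 v)⁻¹ * upGL 1 1 (algebraMap F (v.adicCompletion F) ((m : F) * (β : F))) * x.1 v ∈ U.J v

theorem isPeriodClass_of_fix {ξ : Ωf U} {m : ℕ}
    (h : ∀ (b : 𝓞 F) (g : GL (Fin 2) F),
      (g : Matrix (Fin 2) (Fin 2) F) = !![1, (m : F) * (b : F); 0, 1] → g • ξ = ξ) :
    IsPeriodClass U ξ.out m := by
  intro β v
  have h1 := h β (upGL 1 1 ((m : F) * (β : F))) (by simp)
  conv_lhs at h1 => rw [← QuotientGroup.out_eq' ξ]
  conv_rhs at h1 => rw [← QuotientGroup.out_eq' ξ]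
  have h2 := QuotientGroup.eq.mp h1.symm v
  rw [show upGL (R := v.adicCompletion F) 1 1
      (algebraMap F (v.adicCompletion F) ((m : F) * (β : F))) =
    toLocal v (upGL 1 1 ((m : F) * (β : F))) by rw [toLocal_upGL, map_one]]
  rw [mul_assoc]
  exact h2

theorem IsPeriodClass.absorbed {x : Gf F} {m : ℕ} (hm : 0 < m) (h : IsPeriodClass U x m)
    (v : FPlace F) : IsAbsorbed v (U.J v) (periodExp m v) (x.1 v) := by
  intro z hz
  obtain ⟨N, hN⟩ := exists_smallAt_one U x v
  set μ : v.adicCompletion F := algebraMap F (v.adicCompletion F) (m : F)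
  have hμ : valv v μ = WithZero.exp (periodExp (F := F) m v) := by
    rw [valv_algebraMap, exp_periodExp hm]
  have hμ0 : μ ≠ 0 := fun h0 => by rw [h0, map_zero] at hμ; exact WithZero.exp_ne_zero hμ.symm
  have hzμ : valv v (z / μ) ≤ 1 := by
    rw [map_div₀, hμ, div_le_one₀ WithZero.exp_pos]; exact hz
  obtain ⟨β, hβ⟩ := exists_integer_sub_le v (z / μ) hzμ N
  have hr : valv v (z - algebraMap F (v.adicCompletion F) ((m : F) * (β : F))) ≤
      WithZero.exp (-(N : ℤ)) := by
    rw [map_mul, show z - μ * algebraMap F (v.adicCompletion F) (β : F) =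
      -(μ * (algebraMap F (v.adicCompletion F) (β : F) - z / μ)) by field_simp; ring,
      Valuation.map_neg, map_mul]
    refine (mul_le_of_le_one_left' ?_).trans hβ
    rw [hμ, ← WithZero.exp_zero, WithZero.exp_le_exp]
    exact periodExp_nonpos hm v
  rw [show z = algebraMap F (v.adicCompletion F) ((m : F) * (β : F)) +
    (z - algebraMap F (v.adicCompletion F) ((m : F) * (β : F))) by ring]
  set r := z - algebraMap F (v.adicCompletion F) ((m : F) * (β : F))
  rw [upGL_add_eq, show ∀ A B : GLv v, (x.1 v)⁻¹ * (A * B) * x.1 v =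
    ((x.1 v)⁻¹ * A * x.1 v) * ((x.1 v)⁻¹ * B * x.1 v) from fun A B => by group]
  refine mul_mem ?_ (h β v)
  have h2 := hN r hr
  rwa [show unipHom (v.adicCompletion F) r = upGL 1 1 r from
    Units.ext (by simp [coe_unipHom])] at h2

variable {Bad P : Finset (FPlace F)}

theorem fin_eq_levelFun (hU : ∀ v ∉ Bad, U.J v = maxSubgroup v) {d : GoodDatum F} {v : FPlace F}
    (hd : v ∉ Bad → d.loc v = Finsupp.single 0 1) : d.fin U Bad v = levelFun U v := by
  classical
  funext g
  by_cases hv : v ∈ Bad
  · simp only [GoodDatum.fin, if_pos hv, levelFun]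
  · simp only [GoodDatum.fin, if_neg hv, levelFun, hd hv, Finsupp.single_apply]
    refine if_congr ?_ rfl rfl
    rw [hU v hv, eq_comm, Tree.cartan_eq_zero_iff]
    rfl

theorem fin_left (hU : ∀ v ∉ Bad, U.J v = maxSubgroup v) (d : GoodDatum F) (v : FPlace F)
    {j : GLv v} (hj : j ∈ U.J v) (g : GLv v) : d.fin U Bad v (j * g) = d.fin U Bad v g := by
  have := (d.isLocalFamily hU).bi v j hj 1 (one_mem _) g
  rwa [mul_one] at this

theorem exists_cartan_bound (d : GoodDatum F) (U : Level F) (Bad : Finset (FPlace F))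
    (v : FPlace F) : ∃ N : ℕ, ∀ g, d.fin U Bad v g ≠ 0 → cartan (valv v) g < N := by
  classical
  refine ⟨Tree.spBound (d.loc v) + 1, fun g hg => ?_⟩
  by_cases hv : v ∈ Bad
  · simp only [GoodDatum.fin, if_pos hv, ite_ne_right_iff] at hg
    rw [Tree.cartan_eq_zero_iff.mpr (U.le_max v hg.1)]
    omega
  · simp only [GoodDatum.fin, if_neg hv] at hg
    by_contra h
    exact hg (Tree.apply_eq_zero_of_spBound_le (by omega))

/-- The local sum attached to the level. -/
def levelSum (U : Level F) (x y : Gf F) (m : ℕ) (a : Fˣ) (v : FPlace F) : ℂ :=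
  placeSum v (periodExp m v) (levelFun U v) (x.1 v) (y.1 v) (aLoc v a)

/-- The finite part between two classes at an upper triangular element. -/
def finTerm (d : GoodDatum F) (U : Level F) (Bad : Finset (FPlace F)) (x y : Gf F) (a : Fˣ)
    (b : F) : ℂ :=
  Orbital.globalFun (d.fin U Bad) (x⁻¹ * (diag F (upGL a 1 b) * y))

theorem finTerm_apply (d : GoodDatum F) (U : Level F) (Bad : Finset (FPlace F)) (x y : Gf F)
    (a : Fˣ) (b : F) : finTerm d U Bad x y a b = ∏ᶠ v, d.fin U Bad v
      ((x.1 v)⁻¹ * upGL (aLoc v a) 1 (algebraMap F (v.adicCompletion F) b) * y.1 v) := by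
  refine finprod_congr fun v => ?_
  show d.fin U Bad v ((x.1 v)⁻¹ * (toLocal v (upGL a 1 b) * y.1 v)) = _
  rw [toLocal_upGL_eq, mul_assoc]

theorem finTerm_periodic {m : ℕ} (hm : 0 < m) {x : Gf F} (hx : IsPeriodClass U x m)
    (hU : ∀ v ∉ Bad, U.J v = maxSubgroup v) (d : GoodDatum F) (y : Gf F) (a : Fˣ) (b : F)
    {z : F} (hz : z ∈ periodLattice F m) :
    finTerm d U Bad x y a (b + z) = finTerm d U Bad x y a b := by
  rw [finTerm_apply, finTerm_apply]
  refine finprod_congr fun v => ?_
  rw [map_add]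
  exact term_periodic v (hx.absorbed hm v) (fun j hj g => fin_left hU d v hj g) _ _ _
    (by rw [mem_ballv, valv_algebraMap]; exact hz v)

/-- The places where a given diagonal element or given classes are not integral. -/
theorem exists_exceptional (x y : Gf F) {m : ℕ} (hm : 0 < m) (a : Fˣ) (Bad P : Finset (FPlace F)) :
    ∃ T : Finset (FPlace F), Bad ⊆ T ∧ P ⊆ T ∧ ∀ v ∉ T, x.1 v ∈ maxSubgroup v ∧
      y.1 v ∈ maxSubgroup v ∧ periodExp (F := F) m v = 0 ∧ v.valuation F (a : F) = 1 := by
  classical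
  have h : ∀ᶠ v in Filter.cofinite, x.1 v ∈ maxSubgroup v ∧ y.1 v ∈ maxSubgroup v ∧
      periodExp (F := F) m v = 0 ∧ v.valuation F (a : F) = 1 := by
    filter_upwards [x.2, y.2, eventually_periodExp_eq_zero hm, eventually_norm_eq_one a.ne_zero]
      with v h1 h2 h3 h4
    rw [norm_eq_one_iff_valv, valv_algebraMap] at h4
    exact ⟨h1, h2, h3, h4⟩
  have hf := Filter.eventually_cofinite.mp h
  refine ⟨Bad ∪ P ∪ hf.toFinset, fun v hv => by simp [hv], fun v hv => by simp [hv], fun v hv => ?_⟩
  simp only [Finset.mem_union, not_or, Set.Finite.mem_toFinset, Set.mem_ofPred_eq, not_not] at hv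
  exact hv.2

theorem levelSum_eq_one (hU : ∀ v ∉ Bad, U.J v = maxSubgroup v) {x y : Gf F} {m : ℕ} {a : Fˣ}
    {v : FPlace F} (hv : v ∉ Bad) (h : x.1 v ∈ maxSubgroup v ∧ y.1 v ∈ maxSubgroup v ∧
      periodExp (F := F) m v = 0 ∧ v.valuation F (a : F) = 1) : levelSum U x y m a v = 1 := by
  classical
  have e : levelFun U v = fun g : GLv v => if g ∈ maxSubgroup v then (1 : ℂ) else 0 := by
    funext g; simp only [levelFun, hU v hv]
  rw [levelSum, h.2.2.1, e]
  exact placeSum_unit v h.1 h.2.1 (by rw [valv_aLoc]; exact h.2.2.2)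

/-- The finite part summed modulo the period lattice is a product of local sums. -/
theorem finTerm_sum (hU : ∀ v ∉ Bad, U.J v = maxSubgroup v) {m : ℕ} (hm : 0 < m) {x : Gf F}
    (hx : IsPeriodClass U x m) (y : Gf F) (d : GoodDatum F)
    (hd : ∀ v ∉ P, d.loc v = Finsupp.single 0 1) (a : Fˣ) :
    (Function.support fun q : F ⧸ periodLattice F m => finTerm d U Bad x y a q.out).Finite ∧
    ∑ᶠ q : F ⧸ periodLattice F m, finTerm d U Bad x y a q.out =
      (∏ v ∈ P, placeSum v (periodExp m v) (d.fin U Bad v) (x.1 v) (y.1 v) (aLoc v a)) *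
        ∏ᶠ (v : FPlace F) (_ : v ∉ P), levelSum U x y m a v := by
  classical
  obtain ⟨T, hBT, hPT, hT⟩ := exists_exceptional x y hm a Bad P
  set h : ∀ v : FPlace F, v.adicCompletion F → ℂ := fun v b =>
    d.fin U Bad v ((x.1 v)⁻¹ * upGL (aLoc v a) 1 b * y.1 v) with hh
  have hout : ∀ v ∉ T, ∀ b : F, h v (algebraMap F (v.adicCompletion F) b) =
      if v.valuation F b ≤ 1 then 1 else 0 := fun v hv b => by
    obtain ⟨h1, h2, -, h4⟩ := hT v hv
    simp only [hh, fin_eq_levelFun hU (fun _ => hd v fun hP => hv (hPT hP)), levelFun,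
      hU v fun hB => hv (hBT hB)]
    refine if_congr ?_ rfl rfl
    rw [Subgroup.mul_mem_cancel_right _ h2, Subgroup.mul_mem_cancel_left _ (inv_mem h1),
      upGL_mem_maxSubgroup_iff, valv_aLoc, valv_algebraMap]
    exact and_iff_right h4
  have hG : ∀ b : F, finTerm d U Bad x y a b = if ∀ v ∉ T, v.valuation F b ≤ 1 then
      ∏ v ∈ T, h v (algebraMap F (v.adicCompletion F) b) else 0 := fun b => by
    rw [finTerm_apply]
    have hfin : (fun v => h v (algebraMap F (v.adicCompletion F) b)).HasFiniteMulSupport := by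
      refine (T.finite_toSet.union (Filter.eventually_cofinite.mp
        (eventually_valuation_le_one b))).subset fun v hv => ?_
      by_cases hvT : v ∈ T
      · exact Or.inl hvT
      · refine Or.inr fun hb => hv ?_
        show h v _ = 1
        rw [hout v hvT, if_pos hb]
    show ∏ᶠ v, h v (algebraMap F (v.adicCompletion F) b) = _
    split_ifs with hb
    · refine finprod_eq_prod_of_mulSupport_subset _ fun v hv => ?_
      by_contra hvT
      exact hv (show h v _ = 1 by rw [hout v hvT, if_pos (hb v hvT)])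
    · push Not at hb
      obtain ⟨v, hv, hb⟩ := hb
      exact finprod_eq_zero _ v (by rw [hout v hv, if_neg (not_le.mpr hb)]) hfin
  obtain ⟨hfs, hsum⟩ := finsum_quotient_eq_prod T (fun v => periodExp m v)
    (fun v hv => (hT v hv).2.2.1) (periodLattice F m) (fun x => mem_periodLattice) h
    (fun v _ g z hz => term_periodic v (hx.absorbed hm v) (fun j hj g => fin_left hU d v hj g)
      _ _ g hz)
    (fun v _ => let ⟨N, hN⟩ := exists_cartan_bound d U Bad v
      finite_support_term v _ _ hN _ _ _) _ hG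
  refine ⟨hfs, hsum.trans ?_⟩
  rw [← Finset.prod_sdiff hPT, mul_comm]
  congr 1
  have hsupp : (Function.mulSupport fun v : FPlace F => ∏ᶠ (_ : v ∉ P), levelSum U x y m a v) ⊆
      ((T \ P : Finset (FPlace F)) : Set (FPlace F)) := fun v hv => by
    rw [Function.mem_mulSupport, finprod_eq_if] at hv
    split_ifs at hv with hP
    · exact absurd rfl hv
    · rw [Finset.coe_sdiff]
      refine ⟨?_, hP⟩
      by_contra hvT
      exact hv (levelSum_eq_one hU (fun hB => hvT (hBT hB)) (hT v hvT))
  rw [finprod_eq_prod_of_mulSupport_subset _ hsupp]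
  refine Finset.prod_congr rfl fun v hv => ?_
  rw [finprod_eq_if, if_pos (Finset.mem_sdiff.mp hv).2, levelSum, placeSum]
  simp only [hh, fin_eq_levelFun hU fun _ => hd v (Finset.mem_sdiff.mp hv).2]

end Fermat.Agent.ResidualThree.Killing
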