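import Fermat.Agent.ResidualThree.CubicDescent.Killing.Weight

/-!
# The box integral of the Borel part as a sum over diagonal elements

A translation splits uniquely into a class modulo the period lattice and a lattice point. The
finite part factors over the classes and the lattice points unfold the box, so the Borel part of a
datum is the sum over the diagonal of the weight times the transform at the position.
-/

noncomputable section

open IsDedekindDomain NumberField MeasureTheory
open scoped WithZero

namespace Fermat.Agent.ResidualThree.Killing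

variable {F : Type} [Field F] [NumberField F] [IsTotallyComplex F] {U : Level F}
  {Bad P : Finset (FPlace F)}

/-- The integer point of given coordinates, times `-m`. -/
def latPoint (m : ℕ) (n : BasisIx F → ℤ) : F :=
  -((m : F) * ((∑ i, n i • RingOfIntegers.basis F i : 𝓞 F) : F))

omit [IsTotallyComplex F] in
theorem archVec_latPoint (m : ℕ) (n : BasisIx F → ℤ) :
    archVec (latPoint (F := F) m n) = -boxPt m fun i => (n i : ℝ) := by
  funext w
  rw [Pi.neg_apply, boxPt_int]
  simp only [archVec, latPoint, map_neg, map_mul, map_natCast]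

/-- Classes modulo the period lattice and lattice points. -/
def splitMap (m : ℕ) (z : (F ⧸ periodLattice F m) × (BasisIx F → ℤ)) : F :=
  z.1.out + latPoint m z.2

omit [IsTotallyComplex F] in
theorem latPoint_mem {m : ℕ} (hm : 0 < m) (n : BasisIx F → ℤ) :
    latPoint (F := F) m n ∈ periodLattice F m := neg_mem (natCast_mul_mem_periodLattice hm _)

omit [IsTotallyComplex F] in
/-- A translation is a class plus a lattice point, uniquely. -/
theorem splitMap_bijective {m : ℕ} (hm : 0 < m) : Function.Bijective (splitMap (F := F) m) := by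
  constructor
  · rintro ⟨q, n⟩ ⟨q', n'⟩ h
    simp only [splitMap] at h
    have hq : q = q' := by
      rw [← QuotientAddGroup.out_eq' q, ← QuotientAddGroup.out_eq' q', QuotientAddGroup.eq,
        show -q.out + q'.out = latPoint m n - latPoint m n' by linear_combination -h]
      exact sub_mem (latPoint_mem hm n) (latPoint_mem hm n')
    subst hq
    have h2 := add_left_cancel h
    simp only [latPoint, neg_inj, mul_eq_mul_left_iff, Nat.cast_eq_zero, hm.ne', or_false] at h2
    have h3 := RingOfIntegers.coe_injective h2
    refine Prod.ext rfl ?_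
    rw [← Module.Basis.equivFun_symm_apply, ← Module.Basis.equivFun_symm_apply] at h3
    exact (RingOfIntegers.basis F).equivFun.symm.injective h3
  · intro b
    obtain ⟨β, hβ⟩ := exists_integer_of_mem_periodLattice hm
      (QuotientAddGroup.eq.mp
        (QuotientAddGroup.out_eq' (QuotientAddGroup.mk b : F ⧸ periodLattice F m)))
    refine ⟨((QuotientAddGroup.mk b : F ⧸ periodLattice F m),
      fun i => -(RingOfIntegers.basis F).repr β i), ?_⟩
    rw [splitMap, latPoint]
    simp only [neg_smul, Finset.sum_neg_distrib, Module.Basis.sum_repr, map_neg, mul_neg, neg_neg,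
      ← hβ]
    ring

/-- The archimedean integral at an upper triangular element. -/
def archInt (d : GoodDatum F) (m : ℕ) (p q : Hyp F) (a : Fˣ) (b : F) : ℂ :=
  ∫ t in Set.Icc (0 : BasisIx F → ℝ) 1,
    boxTerm (fun w => sphKernel (d.g w)) m p (upGL a 1 b • q) t

/-- The contribution of a datum at an upper triangular element. -/
def borelTerm (d : GoodDatum F) (U : Level F) (Bad : Finset (FPlace F)) (x y : Gf F) (m : ℕ)
    (p q : Hyp F) (z : Fˣ × F) : ℂ :=
  finTerm d U Bad x y z.1 z.2 * archInt d m p q z.1 z.2

/-- The position of a diagonal element. -/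
def posOf (P : Finset (FPlace F)) (x y : Gf F) (p q : Hyp F) (a : Fˣ) : ShiftSpace P :=
  (fun v => -logPos x y a v, fun w => Real.log (w (a : F)) + Real.log (q w).y - Real.log (p w).y)

omit [IsTotallyComplex F] in
theorem posOf_mul (x y : Gf F) (p q : Hyp F) (a a₀ : Fˣ) :
    posOf P x y p q (a * a₀) = posOf P x y p q a + shiftVec P (a₀ : F) := by
  refine Prod.ext (funext fun v => ?_) (funext fun w => ?_)
  · simp only [posOf, shiftVec, Prod.fst_add, Pi.add_apply, logPos_mul]
    ring
  · simp only [posOf, shiftVec, Prod.snd_add, Pi.add_apply, Units.val_mul, map_mul]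
    rw [Real.log_mul (InfinitePlace.pos_iff.mpr a.ne_zero).ne'
      (InfinitePlace.pos_iff.mpr a₀.ne_zero).ne']
    ring

omit [NumberField F] [IsTotallyComplex F] in
theorem smul_upGL_y (a : Fˣ) (b : F) (q : Hyp F) (w : InfinitePlace F) :
    ((upGL a 1 b • q) w).y = w (a : F) * (q w).y := by
  have h10 : ((toComplex w (upGL a 1 b) : GL (Fin 2) ℂ) : Matrix (Fin 2) (Fin 2) ℂ) 1 0 = 0 := by
    simp [toComplex]
  show (toComplex w (upGL a 1 b) • q w).y = _
  rw [H3.smul_y_of_upper h10]
  simp [toComplex, InfinitePlace.norm_embedding_eq]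

/-- The lattice points unfold the box to the test functions at the position. -/
theorem hasSum_archInt {m : ℕ} (hm : 0 < m) {c : ℂ}
    (hc : ∀ g : (InfinitePlace F → ℂ) → ℂ, ∫ t, g (boxPt (F := F) m t) = c * ∫ x, g x)
    (d : GoodDatum F) (x y : Gf F) (p q : Hyp F) (a : Fˣ) (b : F) :
    HasSum (fun n => archInt d m p q a (b + latPoint m n))
      ((c * ∏ w, (((w (a : F) * (q w).y * (p w).y : ℝ)) : ℂ)) *
        ∏ w, d.g w ((posOf P x y p q a).2 w)) := by
  have e1 : ∀ n : BasisIx F → ℤ, (upGL a 1 (b + latPoint m n) : GL (Fin 2) F) • q =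
      horoShift (-boxPt m fun i => (n i : ℝ)) (upGL a 1 b • q) := fun n => by
    rw [show upGL a 1 (b + latPoint m n) = unipHom F (latPoint m n) * upGL a 1 b from
      Units.ext (by ext i j; fin_cases i <;> fin_cases j <;>
        simp [coe_unipHom, Matrix.mul_apply, Fin.sum_univ_two]), mul_smul, unipHom_smul_hyp,
      archVec_latPoint]
  simp only [archInt, e1]
  convert! hasSum_boxTerm m hm hc (fun w => sphKernel (d.g w))
    (fun w => (sphKernel_spec (d.test w)).1) p (upGL a 1 b • q) using 1
  rw [Finset.prod_mul_distrib, mul_assoc]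
  congr 2
  · exact Finset.prod_congr rfl fun w _ => by rw [smul_upGL_y]
  · refine Finset.prod_congr rfl fun w _ => ?_
    rw [(sphKernel_spec (d.test w)).2.1, smul_upGL_y, Real.log_mul
      (InfinitePlace.pos_iff.mpr a.ne_zero).ne' (q w).y_pos.ne', ← (d.test w).even]
    congr 1
    simp only [posOf]
    ring

omit [IsTotallyComplex F] in
/-- The transform of a datum at the position of a diagonal element. -/
theorem transform_posOf (d : GoodDatum F) (x y : Gf F) (p q : Hyp F) (a : Fˣ) :
    d.transform P (posOf P x y p q a) =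
      (∏ v ∈ P, satakeInt (Ideal.absNorm v.asIdeal) (d.loc v) (logPos x y a v)) *
        ∏ w, d.g w ((posOf P x y p q a).2 w) := by
  rw [GoodDatum.transform, ← Finset.prod_coe_sort P]
  congr 1
  refine Finset.prod_congr rfl fun v _ => ?_
  simp only [posOf, satakeInt, Int.natAbs_neg]

/-- One datum: the sum over the Borel subgroup is a sum over the diagonal. -/
theorem hasSum_borelTerm (hU : ∀ v ∉ Bad, U.J v = maxSubgroup v) (hdisj : Disjoint P Bad) {m : ℕ}
    (hm : 0 < m) {c : ℂ}
    (hc : ∀ g : (InfinitePlace F → ℂ) → ℂ, ∫ t, g (boxPt (F := F) m t) = c * ∫ x, g x)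
    {x : Gf F} (hx : IsPeriodClass U x m) (y : Gf F) (p q : Hyp F) (d : GoodDatum F)
    (hd : ∀ v ∉ P, d.loc v = Finsupp.single 0 1) {T : ℂ}
    (hT : HasSum (borelTerm d U Bad x y m p q) T) :
    HasSum (fun a => weight U P x y m c p q a * d.transform P (posOf P x y p q a)) T := by
  refine hT.prod_fiberwise fun a => ?_
  set J : ℂ := (c * ∏ w, (((w (a : F) * (q w).y * (p w).y : ℝ)) : ℂ)) *
    ∏ w, d.g w ((posOf P x y p q a).2 w) with hJ
  have hb : Summable fun b => borelTerm d U Bad x y m p q (a, b) :=
    hT.summable.prod_factor a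
  have h1 := hb.hasSum
  set e := Equiv.ofBijective _ (splitMap_bijective (F := F) hm)
  have h2 : HasSum (fun z => borelTerm d U Bad x y m p q (a, splitMap m z))
      (∑' b, borelTerm d U Bad x y m p q (a, b)) :=
    (e.hasSum_iff (f := fun b => borelTerm d U Bad x y m p q (a, b))).mpr h1
  have h3 : ∀ r : F ⧸ periodLattice F m, HasSum
      (fun n => borelTerm d U Bad x y m p q (a, splitMap m (r, n)))
      (finTerm d U Bad x y a r.out * J) := fun r => by
    simp only [borelTerm, splitMap, finTerm_periodic hm hx hU d y a _ (latPoint_mem hm _)]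
    exact (hasSum_archInt (P := P) hm hc d x y p q a r.out).mul_left _
  have h4 := h2.prod_fiberwise h3
  have h5 : ∑' r : F ⧸ periodLattice F m, finTerm d U Bad x y a r.out * J =
      weight U P x y m c p q a * d.transform P (posOf P x y p q a) := by
    rw [tsum_mul_right, tsum_eq_finsum (finTerm_sum hU hm hx y d hd a).1,
      finTerm_sum_eq hU hdisj hm hx y d hd a, transform_posOf, weight, hJ]
    ring
  rw [← h5, h4.tsum_eq]
  exact h1

end Fermat.Agent.ResidualThree.Killing
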