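import Fermat.Agent.ResidualThree.CubicDescent.Killing.Setup

/-!
# The weight of a diagonal element and its invariance

The weight collects the index factors and local sums of the level. By the product formula it is
unchanged when the diagonal element is multiplied by an element that is a unit outside `P` and
close to one at the bad places.
-/

noncomputable section

open IsDedekindDomain NumberField
open scoped WithZero

namespace Fermat.Agent.ResidualThree.Killing

variable {F : Type} [Field F] [NumberField F] {U : Level F} {Bad P : Finset (FPlace F)}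

/-- The diagonal entry of an Iwasawa decomposition. -/
def iwasawaA (v : FPlace F) (g : GLv v) : (v.adicCompletion F)ˣ := (exists_affine_max v g).choose

theorem exists_iwasawaA (v : FPlace F) (g : GLv v) :
    ∃ (τ : v.adicCompletion F), ∃ k ∈ maxSubgroup v, g = upGL (iwasawaA v g) 1 τ * k :=
  (exists_affine_max v g).choose_spec

theorem valv_iwasawaA_of_mem {v : FPlace F} {g : GLv v} (hg : g ∈ maxSubgroup v) :
    valv v (iwasawaA v g : v.adicCompletion F) = 1 := by
  obtain ⟨τ, k, hk, he⟩ := exists_iwasawaA v g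
  rw [he, Subgroup.mul_mem_cancel_right _ hk, upGL_mem_maxSubgroup_iff] at hg
  exact hg.1

/-- The logarithmic offset between two classes. -/
def logOffset (x y : Gf F) (v : FPlace F) : ℤ :=
  WithZero.log (valv v (iwasawaA v (y.1 v) : v.adicCompletion F)) -
    WithZero.log (valv v (iwasawaA v (x.1 v) : v.adicCompletion F))

/-- The logarithmic position of a diagonal element. -/
def logPos (x y : Gf F) (a : Fˣ) (v : FPlace F) : ℤ :=
  WithZero.log (v.valuation F (a : F)) + logOffset x y v

theorem logExp_iwasawaA (x y : Gf F) (a : Fˣ) (v : FPlace F) :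
    logExp v (iwasawaA v (x.1 v)) (iwasawaA v (y.1 v)) (aLoc v a) = logPos x y a v := by
  have h0 : ∀ u : (v.adicCompletion F)ˣ, valv v (u : v.adicCompletion F) ≠ 0 :=
    fun u => (Valuation.ne_zero_iff _).mpr u.ne_zero
  rw [logExp, logPos, logOffset, Units.val_mul, Units.val_mul, map_mul, map_mul,
    WithZero.log_mul (mul_ne_zero (h0 _) (h0 _)) (h0 _), WithZero.log_mul (h0 _) (h0 _),
    Units.val_inv_eq_inv_val, map_inv₀, WithZero.log_inv, valv_aLoc]
  ring

theorem eventually_logOffset (x y : Gf F) : ∀ᶠ v in Filter.cofinite, logOffset x y v = 0 := by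
  filter_upwards [x.2, y.2] with v h1 h2
  rw [logOffset, valv_iwasawaA_of_mem h1, valv_iwasawaA_of_mem h2, WithZero.log_one, sub_zero]

/-- The index of the period lattice at a place. -/
def periodIndex (x : Gf F) (m : ℕ) (v : FPlace F) : ℂ :=
  ((ballv v
    (periodExp m v - WithZero.log (valv v (iwasawaA v (x.1 v) : v.adicCompletion F)))).relIndex
    (ballv v 0) : ℂ)

/-- At a good place the sum of a datum is the index times its transform at the position. -/
theorem placeSum_datum {m : ℕ} (hm : 0 < m) {x : Gf F} (hx : IsPeriodClass U x m) (y : Gf F)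
    (d : GoodDatum F) {v : FPlace F} (hv : v ∉ Bad) (a : Fˣ) :
    placeSum v (periodExp m v) (d.fin U Bad v) (x.1 v) (y.1 v) (aLoc v a) =
      periodIndex x m v * (Tree.csqrtN (Ideal.absNorm v.asIdeal) ^ logPos x y a v *
        satakeInt (Ideal.absNorm v.asIdeal) (d.loc v) (logPos x y a v)) := by
  classical
  obtain ⟨τx, kx, hkx, hex⟩ := exists_iwasawaA v (x.1 v)
  obtain ⟨τy, ky, hky, hey⟩ := exists_iwasawaA v (y.1 v)
  have habs := hx.absorbed hm v
  rw [hex] at habs
  have e : d.fin U Bad v = fun g => d.loc v (cartan (valv v) g) := by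
    funext g; simp only [GoodDatum.fin, if_neg hv]
  rw [e, ← logExp_iwasawaA]
  conv_lhs => rw [hex, hey]
  exact placeSum_spherical v (U.le_max v) (d.loc v) hkx hky habs (aLoc v a)

theorem logPos_eq_zero_of_levelSum {x y : Gf F} {m : ℕ} {a : Fˣ} {v : FPlace F}
    (h : levelSum U x y m a v ≠ 0) : logPos x y a v = 0 := by
  classical
  obtain ⟨τx, kx, hkx, hex⟩ := exists_iwasawaA v (x.1 v)
  obtain ⟨τy, ky, hky, hey⟩ := exists_iwasawaA v (y.1 v)
  rw [← logExp_iwasawaA]
  refine logExp_eq_zero_of_ne_zero v (U.le_max v) hkx hky (J := U.J v) (e := periodExp m v)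
    (τx := τx) (τy := τy) (kx := kx) (ky := ky) ?_
  rw [← hex, ← hey]
  exact h

/-- The part of the weight at the finite places. -/
def finWeight (U : Level F) (P : Finset (FPlace F)) (x y : Gf F) (m : ℕ) (a : Fˣ) : ℂ :=
  (∏ v ∈ P, periodIndex x m v * Tree.csqrtN (Ideal.absNorm v.asIdeal) ^ logPos x y a v) *
    ∏ᶠ (v : FPlace F) (_ : v ∉ P), levelSum U x y m a v

/-- The summed finite part is the finite weight times the transforms at `P`. -/
theorem finTerm_sum_eq (hU : ∀ v ∉ Bad, U.J v = maxSubgroup v) (hdisj : Disjoint P Bad) {m : ℕ}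
    (hm : 0 < m) {x : Gf F} (hx : IsPeriodClass U x m) (y : Gf F) (d : GoodDatum F)
    (hd : ∀ v ∉ P, d.loc v = Finsupp.single 0 1) (a : Fˣ) :
    ∑ᶠ q : F ⧸ periodLattice F m, finTerm d U Bad x y a q.out =
      finWeight U P x y m a * ∏ v ∈ P,
        satakeInt (Ideal.absNorm v.asIdeal) (d.loc v) (logPos x y a v) := by
  rw [(finTerm_sum hU hm hx y d hd a).2, finWeight,
    Finset.prod_congr rfl fun v hv => placeSum_datum hm hx y d
      (Finset.disjoint_left.mp hdisj hv) a]
  simp only [Finset.prod_mul_distrib]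
  ring

theorem finWeight_ne_zero (hU : ∀ v ∉ Bad, U.J v = maxSubgroup v) {m : ℕ} (hm : 0 < m)
    {x y : Gf F} {a : Fˣ} (h : finWeight U P x y m a ≠ 0) {v : FPlace F} (hv : v ∉ P) :
    v.valuation F (a : F) = WithZero.exp (-logOffset x y v) := by
  classical
  have h2 := right_ne_zero_of_mul h
  have hne : levelSum U x y m a v ≠ 0 := fun h0 => by
    obtain ⟨T, hBT, hPT, hT⟩ := exists_exceptional x y hm a Bad P
    refine h2 (finprod_eq_zero _ v (by rw [finprod_eq_if, if_pos hv]; exact h0) ?_)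
    refine T.finite_toSet.subset fun w hw => ?_
    rw [Function.mem_mulSupport, finprod_eq_if] at hw
    split_ifs at hw with hP
    · exact absurd rfl hw
    · by_contra hwT
      exact hw (levelSum_eq_one hU (fun hB => hwT (hBT hB)) (hT w hwT))
  have h3 := logPos_eq_zero_of_levelSum hne
  rw [logPos] at h3
  rw [← WithZero.exp_log ((Valuation.ne_zero_iff (v.valuation F)).mpr a.ne_zero)]
  congr 1
  omega

theorem levelSum_mul {m : ℕ} (hm : 0 < m) {x : Gf F} (hx : IsPeriodClass U x m) (y : Gf F)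
    {v : FPlace F} {a₀ : Fˣ}
    (h₀ : ∀ k ∈ maxSubgroup v, k⁻¹ * upGL (aLoc v a₀) 1 0 * k ∈ U.J v) (a : Fˣ) :
    levelSum U x y m (a * a₀) v = levelSum U x y m a v := by
  classical
  rw [levelSum, levelSum, show aLoc v (a * a₀) = aLoc v a * aLoc v a₀ from map_mul _ a a₀]
  refine placeSum_mul_right v (hx.absorbed hm v) ?_ ?_ h₀ _
  · intro j hj g
    simp only [levelFun, Subgroup.mul_mem_cancel_left _ hj]
  · intro j hj g
    simp only [levelFun, Subgroup.mul_mem_cancel_right _ hj]

theorem conj_upGL_mem {v : FPlace F} {J : Subgroup (GLv v)} {n : ℕ} (hJ : congSubgroup v n ≤ J)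
    {a₀ : (v.adicCompletion F)ˣ} (h1 : valv v (a₀ : v.adicCompletion F) = 1)
    (hn : valv v ((a₀ : v.adicCompletion F) - 1) ≤ WithZero.exp (-(n : ℤ))) :
    ∀ k ∈ maxSubgroup v, k⁻¹ * upGL a₀ 1 0 * k ∈ J := by
  intro k hk
  obtain ⟨s, k', hk', rfl⟩ := Tree.mul_mem_vertexSubgroup_iff.mp hk
  have hg : upGL a₀ 1 0 ∈ congSubgroup v n := by
    refine Subgroup.subset_closure (Or.inl ⟨⟨fun i j => ?_, ?_⟩, fun i j => ?_⟩)
    · fin_cases i <;> fin_cases j <;> simp [h1]
    · simp [Matrix.det_fin_two, h1]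
    · fin_cases i <;> fin_cases j <;> simp [hn, -WithZero.exp_neg]
  have hc := Subgroup.mem_center_iff.mp
    (Tree.scalar_mem_center (F := v.adicCompletion F) s) (upGL a₀ 1 0)
  refine hJ ?_
  rw [mul_inv_rev]
  simp only [mul_assoc]
  rw [← mul_assoc (upGL a₀ 1 0), hc, mul_assoc, inv_mul_cancel_left, ← mul_assoc]
  exact BianchiForm.conj_mem_congSubgroup hk' hg

/-- The product formula on the diagonal element. -/
theorem prod_weight_eq_one [IsTotallyComplex F] {a₀ : Fˣ}
    (hord : ∀ v ∉ P, v.valuation F (a₀ : F) = 1) :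
    (∏ v ∈ P, Tree.csqrtN (Ideal.absNorm v.asIdeal) ^ WithZero.log (v.valuation F (a₀ : F))) *
      ∏ w : InfinitePlace F, ((w (a₀ : F) : ℝ) : ℂ) = 1 := by
  classical
  have hnorm : ∀ v : FPlace F, ‖algebraMap F (v.adicCompletion F) (a₀ : F)‖ =
      (Ideal.absNorm v.asIdeal : ℝ) ^ WithZero.log (v.valuation F (a₀ : F)) := fun v => by
    rw [FinitePlace.norm_def, show Valued.v (algebraMap F (v.adicCompletion F) (a₀ : F)) =
      v.valuation F (a₀ : F) from valv_algebraMap v _,
      WithZeroMulInt.toNNReal_neg_apply _ ((Valuation.ne_zero_iff _).mpr a₀.ne_zero)]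
    push_cast
    rw [WithZero.toAdd_unzero_eq_log]
  have hpf := prod_norm_eq_one (F := F) a₀.ne_zero
  have hsupp : (Function.mulSupport fun v : FPlace F =>
      ‖algebraMap F (v.adicCompletion F) (a₀ : F)‖) ⊆ (P : Set (FPlace F)) := fun v hv => by
    by_contra hP
    exact hv (show ‖_‖ = (1 : ℝ) by rw [hnorm, hord v hP, WithZero.log_one, zpow_zero])
  rw [finprod_eq_prod_of_mulSupport_subset _ hsupp] at hpf
  set X : ℝ :=
    (∏ v ∈ P, Real.sqrt (Ideal.absNorm v.asIdeal) ^ WithZero.log (v.valuation F (a₀ : F))) *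
      ∏ w : InfinitePlace F, w (a₀ : F) with hX
  have hX0 : 0 ≤ X := mul_nonneg (Finset.prod_nonneg fun v _ => zpow_nonneg (Real.sqrt_nonneg _) _)
    (Finset.prod_nonneg fun w _ => apply_nonneg w _)
  have hX2 : X ^ 2 = 1 := by
    rw [hX, mul_pow, ← Finset.prod_pow, ← Finset.prod_pow, ← hpf]
    congr 1
    · refine Finset.prod_congr rfl fun v _ => ?_
      rw [hnorm, ← zpow_natCast, ← zpow_mul, mul_comm, zpow_mul, zpow_natCast,
        Real.sq_sqrt (Nat.cast_nonneg _)]
    · exact Finset.prod_congr rfl fun w _ => by rw [InfinitePlace.norm_embedding_eq]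
  have hX1 : X = 1 := (pow_eq_one_iff_of_nonneg hX0 two_ne_zero).mp hX2
  rw [show (1 : ℂ) = ((1 : ℝ) : ℂ) from Complex.ofReal_one.symm, ← hX1, hX]
  push_cast [Tree.csqrtN]
  rfl

theorem logPos_mul (x y : Gf F) (a a₀ : Fˣ) (v : FPlace F) :
    logPos x y (a * a₀) v = logPos x y a v + WithZero.log (v.valuation F (a₀ : F)) := by
  rw [logPos, logPos, Units.val_mul, map_mul, WithZero.log_mul
    ((Valuation.ne_zero_iff _).mpr a.ne_zero) ((Valuation.ne_zero_iff _).mpr a₀.ne_zero)]
  ring

/-- The full weight of a diagonal element. -/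
def weight (U : Level F) (P : Finset (FPlace F)) (x y : Gf F) (m : ℕ) (c : ℂ) (p q : Hyp F)
    (a : Fˣ) : ℂ :=
  finWeight U P x y m a * (c * ∏ w, (((w (a : F) * (q w).y * (p w).y : ℝ)) : ℂ))

/-- The weight does not change when the diagonal element is multiplied by an element which is a
unit outside `P` and close to one at the bad places. -/
theorem weight_mul [IsTotallyComplex F] (hU : ∀ v ∉ Bad, U.J v = maxSubgroup v) {m : ℕ}
    (hm : 0 < m) {x : Gf F} (hx : IsPeriodClass U x m) (y : Gf F) (c : ℂ) (p q : Hyp F) {a₀ : Fˣ}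
    (hord : ∀ v ∉ P, v.valuation F (a₀ : F) = 1)
    (hcong : ∀ v ∈ Bad, ∃ n, congSubgroup v n ≤ U.J v ∧
      v.valuation F ((a₀ : F) - 1) ≤ WithZero.exp (-(n : ℤ))) (a : Fˣ) :
    weight U P x y m c p q (a * a₀) = weight U P x y m c p q a := by
  classical
  have hlev : (∏ᶠ (v : FPlace F) (_ : v ∉ P), levelSum U x y m (a * a₀) v) =
      ∏ᶠ (v : FPlace F) (_ : v ∉ P), levelSum U x y m a v := by
    refine finprod_congr fun v => finprod_congr fun hv => levelSum_mul hm hx y ?_ a
    have h1 : valv v (aLoc v a₀ : v.adicCompletion F) = 1 := by rw [valv_aLoc, hord v hv]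
    by_cases hB : v ∈ Bad
    · obtain ⟨n, hn, hn'⟩ := hcong v hB
      refine conj_upGL_mem hn h1 ?_
      rwa [coe_aLoc, ← map_one (algebraMap F (v.adicCompletion F)), ← map_sub, valv_algebraMap]
    · intro k hk
      rw [hU v hB]
      exact mul_mem (mul_mem (inv_mem hk) (upGL_mem_maxSubgroup_iff.mpr ⟨h1, by simp⟩)) hk
  have hsplit : (∏ v ∈ P,
      periodIndex x m v * Tree.csqrtN (Ideal.absNorm v.asIdeal) ^ logPos x y (a * a₀) v) =
      (∏ v ∈ P, periodIndex x m v * Tree.csqrtN (Ideal.absNorm v.asIdeal) ^ logPos x y a v) *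
        ∏ v ∈ P, Tree.csqrtN (Ideal.absNorm v.asIdeal) ^ WithZero.log (v.valuation F (a₀ : F)) := by
    rw [← Finset.prod_mul_distrib]
    refine Finset.prod_congr rfl fun v _ => ?_
    rw [logPos_mul, zpow_add₀ (Tree.csqrtN_ne_zero (absNorm_fplace_ne_zero v))]
    ring
  have harch : (∏ w : InfinitePlace F, (((w ((a * a₀ : Fˣ) : F) * (q w).y * (p w).y : ℝ)) : ℂ)) =
      (∏ w : InfinitePlace F, ((w (a₀ : F) : ℝ) : ℂ)) *
        ∏ w : InfinitePlace F, (((w (a : F) * (q w).y * (p w).y : ℝ)) : ℂ) := by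
    rw [← Finset.prod_mul_distrib]
    refine Finset.prod_congr rfl fun w _ => ?_
    rw [Units.val_mul, map_mul]
    push_cast
    ring
  rw [weight, weight, finWeight, finWeight, hlev, hsplit, harch]
  linear_combination (((∏ v ∈ P, periodIndex x m v *
    Tree.csqrtN (Ideal.absNorm v.asIdeal) ^ logPos x y a v) *
      ∏ᶠ (v : FPlace F) (_ : v ∉ P), levelSum U x y m a v) * c *
    ∏ w : InfinitePlace F, (((w (a : F) * (q w).y * (p w).y : ℝ)) : ℂ)) *
      prod_weight_eq_one (P := P) hord

end Fermat.Agent.ResidualThree.Killing
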